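import Mathlib
import Fermat.Agent.S23.Sym
import Fermat.Agent.S23.QuotRel

/-!
# The division lemma

If all `SL(2,ℤ)`-conjugates of a modular form `G` vanish at `τ₀` and `P` is a level one form with a
simple zero at `τ₀` generating the ideal of level one forms vanishing at `τ₀`, then `G / P` is again
a modular form.
-/

set_option autoImplicit false

open UpperHalfPlane ModularForm SlashInvariantForm Finset Filter Topology Asymptotics
open Fermat.Agent.S23
open scoped MatrixGroups Manifold ModularForm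

namespace Fermat.Agent.S20

/-- `f = O(g)` in a punctured neighbourhood of `τ₀`. -/
def NearO (τ₀ : ℍ) (f g : ℍ → ℂ) : Prop :=
  (f ∘ ofComplex) =O[𝓝[≠] (τ₀ : ℂ)] (g ∘ ofComplex)

theorem div_differentiableAt {f : ℍ → ℂ} (hf : MDiff f) (τ₀ : ℍ) :
    DifferentiableAt ℂ (f ∘ ofComplex) (τ₀ : ℂ) :=
  ((UpperHalfPlane.mdifferentiable_iff.mp hf) τ₀ τ₀.im_pos).differentiableAt
    (isOpen_upperHalfPlaneSet.mem_nhds τ₀.im_pos)

theorem NearO.of_simple_zero {τ₀ : ℍ} {f P : ℍ → ℂ} (hf : MDiff f) (hP : MDiff P)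
    (hf0 : f τ₀ = 0) (hP0 : P τ₀ = 0) (hP' : deriv (P ∘ ofComplex) τ₀ ≠ 0) : NearO τ₀ f P := by
  have h1 := (div_differentiableAt hf τ₀).hasDerivAt
  have h2 := (div_differentiableAt hP τ₀).hasDerivAt
  have e1 : (f ∘ ofComplex) (τ₀ : ℂ) = 0 := by simp [hf0]
  have e2 : (P ∘ ofComplex) (τ₀ : ℂ) = 0 := by simp [hP0]
  have h3 := h1.tendsto_slope.div h2.tendsto_slope hP'
  refine isBigO_of_div_tendsto_nhds ?_ _ (h3.congr' ?_)
  · filter_upwards [h2.eventually_ne (c := 0) hP'] with z hz h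
    exact absurd h hz
  · filter_upwards [self_mem_nhdsWithin] with z hz
    have hz' : z - (τ₀ : ℂ) ≠ 0 := sub_ne_zero.mpr hz
    simp only [Pi.div_apply, slope_def_field, e1, e2, sub_zero]
    field_simp

theorem NearO.mul {τ₀ : ℍ} {f g f' g' : ℍ → ℂ} (h : NearO τ₀ f g) (h' : NearO τ₀ f' g') :
    NearO τ₀ (f * f') (g * g') :=
  IsBigO.mul h h'

theorem NearO.add {τ₀ : ℍ} {f g f' : ℍ → ℂ} (h : NearO τ₀ f g) (h' : NearO τ₀ f' g) :
    NearO τ₀ (f + f') g :=
  IsBigO.add h h'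

theorem NearO.const_smul {τ₀ : ℍ} {f g : ℍ → ℂ} (h : NearO τ₀ f g) (c : ℂ) :
    NearO τ₀ (c • f) g :=
  IsBigO.const_smul_left h c

theorem NearO.zero (τ₀ : ℍ) (g : ℍ → ℂ) : NearO τ₀ 0 g :=
  isBigO_zero _ _

theorem NearO.sum {ι : Type*} {τ₀ : ℍ} (S : Finset ι) {f : ι → ℍ → ℂ} {g : ℍ → ℂ}
    (h : ∀ i ∈ S, NearO τ₀ (f i) g) : NearO τ₀ (∑ i ∈ S, f i) g := by
  classical
  induction S using Finset.induction_on with
  | empty => simpa using NearO.zero τ₀ g
  | insert a s ha ih =>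
    rw [Finset.sum_insert ha]
    exact (h a (mem_insert_self a s)).add (ih fun i hi => h i (mem_insert_of_mem hi))

theorem NearO.prod {ι : Type*} {τ₀ : ℍ} (S : Finset ι) {f : ι → ℍ → ℂ} {g : ℍ → ℂ}
    (h : ∀ i ∈ S, NearO τ₀ (f i) g) : NearO τ₀ (∏ i ∈ S, f i) (g ^ #S) := by
  classical
  induction S using Finset.induction_on with
  | empty =>
    simp only [prod_empty, card_empty, pow_zero]
    exact isBigO_refl _ _
  | insert a s ha ih =>
    rw [Finset.prod_insert ha, Finset.card_insert_of_notMem ha, pow_succ']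
    exact (h a (mem_insert_self a s)).mul (ih fun i hi => h i (mem_insert_of_mem hi))

/-- The data of a "prime divisor" of the ring of level one forms. -/
structure IsDivisor (w : ℤ) (P : ModularForm 𝒮ℒ w) (τ₀ : ℍ) : Prop where
  zero : P τ₀ = 0
  simple : deriv (P ∘ ofComplex) τ₀ ≠ 0
  dvd : ∀ (n : ℤ) (a : ModularForm 𝒮ℒ n), a τ₀ = 0 →
    ∃ b : ModularForm 𝒮ℒ (n - w), ∀ z, a z = P z * b z

variable {w : ℤ} {P : ModularForm 𝒮ℒ w} {τ₀ : ℍ}

theorem IsDivisor.eventually_ne (hP : IsDivisor w P τ₀) :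
    ∀ᶠ z in 𝓝[≠] (τ₀ : ℂ), (P ∘ ofComplex) z ≠ 0 :=
  (div_differentiableAt P.holo' τ₀).hasDerivAt.eventually_ne hP.simple

theorem IsDivisor.ne_zero (hP : IsDivisor w P τ₀) : (P : ℍ → ℂ) ≠ 0 := by
  intro h
  apply hP.simple
  have : (P : ℍ → ℂ) ∘ ofComplex = fun _ => 0 := by
    ext z; simp [h]
  rw [this]
  simp

/-- a level one form which is `O(P ^ m)` near `τ₀` is divisible by `P ^ m`. -/
theorem IsDivisor.pow_dvd (hP : IsDivisor w P τ₀) (m : ℕ) :
    ∀ (n : ℤ) (a : ModularForm 𝒮ℒ n), NearO τ₀ a ((P : ℍ → ℂ) ^ m) →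
      ∃ b : ModularForm 𝒮ℒ (n - m * w), ∀ z, a z = P z ^ m * b z := by
  induction m with
  | zero =>
    intro n a _
    exact ⟨ModularForm.mcast (by simp) a, fun z => by simp⟩
  | succ m ih =>
    intro n a ha
    have ha0 : a τ₀ = 0 := by
      have hc : Tendsto (a ∘ ofComplex) (𝓝[≠] (τ₀ : ℂ)) (𝓝 ((a ∘ ofComplex) τ₀)) :=
        ((div_differentiableAt a.holo' τ₀).continuousAt.tendsto).mono_left nhdsWithin_le_nhds
      have hP0 : Tendsto (((P : ℍ → ℂ) ^ (m + 1)) ∘ ofComplex) (𝓝[≠] (τ₀ : ℂ)) (𝓝 0) := by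
        have h1 : Tendsto (P ∘ ofComplex) (𝓝[≠] (τ₀ : ℂ)) (𝓝 ((P ∘ ofComplex) τ₀)) :=
          ((div_differentiableAt P.holo' τ₀).continuousAt.tendsto).mono_left nhdsWithin_le_nhds
        have h2 := h1.pow (m + 1)
        have e : (P ∘ ofComplex) (τ₀ : ℂ) = 0 := by simp [hP.zero]
        rw [e, zero_pow (Nat.succ_ne_zero m)] at h2
        exact h2
      have h0 := IsBigO.trans_tendsto ha hP0
      have := tendsto_nhds_unique hc h0
      simpa using this
    obtain ⟨b₁, hb₁⟩ := hP.dvd n a ha0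
    have hb₁O : NearO τ₀ b₁ ((P : ℍ → ℂ) ^ m) := by
      obtain ⟨C, hC⟩ := ha.bound
      refine IsBigO.of_bound C ?_
      filter_upwards [hC, hP.eventually_ne] with z hz hPz
      simp only [Function.comp_apply, Pi.pow_apply, hb₁, norm_mul, norm_pow] at hz hPz ⊢
      have hpos : 0 < ‖P (ofComplex z)‖ := norm_pos_iff.mpr hPz
      rw [pow_succ, ← mul_assoc, mul_comm ‖P (ofComplex z)‖] at hz
      exact le_of_mul_le_mul_right hz hpos
    obtain ⟨b, hb⟩ := ih (n - w) b₁ hb₁O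
    refine ⟨ModularForm.mcast (by push_cast; ring) b, fun z => ?_⟩
    rw [hb₁, hb, ModularForm.mcast_apply]
    ring

section main

variable {Γ : Subgroup SL(2, ℤ)} [Γ.FiniteIndex] {K : ℤ}

local notation "𝒢" => Subgroup.map (Matrix.SpecialLinearGroup.mapGL ℝ) Γ
local notation "𝒬" => 𝒮ℒ ⧸ (Subgroup.subgroupOf 𝒢 𝒮ℒ)
local notation "μ" => symIndex 𝒢

variable {F : Type*} [FunLike F ℍ ℂ]

theorem division_symE_nearO [ModularFormClass F 𝒢 K] (hP : IsDivisor w P τ₀) (G : F)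
    (hG : ∀ q : 𝒬, quotientFunc G q τ₀ = 0) (j : ℕ) :
    NearO τ₀ (symE G j) ((P : ℍ → ℂ) ^ j) := by
  unfold symE
  refine NearO.sum _ fun S hS => ?_
  have hcard : #S = j := (mem_powersetCard.1 hS).2
  rw [← hcard]
  exact NearO.prod S fun q _ =>
    NearO.of_simple_zero (sym_qf_holo G q) P.holo' (hG q) hP.zero hP.simple

/-- the division lemma, at the level of functions -/
theorem division_fun [ModularFormClass F 𝒢 K] (hP : IsDivisor w P τ₀) (G : F)
    (hG : ∀ q : 𝒬, quotientFunc G q τ₀ = 0) :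
    ∃ G' : ℍ → ℂ, MDiff G' ∧ (∀ z, G' z * P z = G z) ∧ ∀ γ ∈ Γ, G' ∣[K - w] γ = G' := by
  have hC : ∀ i : ℕ, ∃ c : ℍ → ℂ, i < μ → (Continuous c ∧
      ∀ z, (rootPoly fun q : 𝒬 => quotientFunc G q z).coeff i = c z * P z ^ (μ - i)) := by
    intro i
    by_cases hi : i < μ
    · obtain ⟨A, hA⟩ := sym_charCoeff_isMF G hi.le
      have hAO : NearO τ₀ A ((P : ℍ → ℂ) ^ (μ - i)) := by
        have e : (A : ℍ → ℂ) = ((-1 : ℂ) ^ (μ - i)) • symE G (μ - i) := by
          ext z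
          rw [hA, rootPoly_coeff _ hi.le, ← symE_apply]
          rfl
        rw [e]
        exact (division_symE_nearO hP G hG _).const_smul _
      obtain ⟨b, hb⟩ := hP.pow_dvd (μ - i) _ A hAO
      exact ⟨b, fun _ => ⟨b.holo'.continuous, fun z => by rw [← hA, hb, mul_comm]⟩⟩
    · exact ⟨0, fun h => absurd h hi⟩
  choose c hc using hC
  have hrel : ∀ z, G z ^ μ + ∑ i ∈ range μ, c i z * G z ^ i * P z ^ (μ - i) = 0 := by
    intro z
    have h2 := rootPoly_eval_self (fun q : 𝒬 => quotientFunc G q z) ⟦1⟧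
    rw [rootPoly_eq_sum, Finset.sum_range_succ] at h2
    simp only [sym_qf_one] at h2
    have h3 : (rootPoly fun q : 𝒬 => quotientFunc G q z).coeff (Fintype.card 𝒬) = 1 := by
      have := (rootPoly_monic fun q : 𝒬 => quotientFunc G q z).coeff_natDegree
      rwa [rootPoly_natDegree] at this
    rw [h3, one_mul, add_comm] at h2
    rw [← h2]
    congr 1
    refine Finset.sum_congr rfl fun i hi => ?_
    rw [(hc i (mem_range.1 hi)).2 z]
    ring
  obtain ⟨G', hG', hGv, -⟩ := quotRel_exists μ G P c (ModularFormClass.holo G) P.holo' hP.ne_zero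
    (fun i hi => (hc i hi).1) hrel
  refine ⟨G', hG', hGv, fun γ hγ => ?_⟩
  refine quotRel_inv G' G P hG' P.holo' hP.ne_zero hGv γ (K - w) w ?_ ?_
  · rw [sub_add_cancel, SL_slash]
    exact SlashInvariantFormClass.slash_action_eq G _ (Subgroup.mem_map_of_mem _ hγ)
  · exact SlashInvariantForm.slash_action_eqn P _ ⟨γ, rfl⟩

theorem division_slash_mul {G' G : ℍ → ℂ} (hGv : ∀ z, G' z * P z = G z) (γ : SL(2, ℤ)) :
    (G' ∣[K - w] γ) * P = G ∣[K] γ := by
  have e : G' * P = G := funext hGv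
  have h1 : (P : ℍ → ℂ) ∣[w] γ = P := SlashInvariantForm.slash_action_eqn P _ ⟨γ, rfl⟩
  have h2 := mul_slash_SL2 (K - w) w γ G' P
  rw [h1, e, sub_add_cancel] at h2
  exact h2.symm

theorem division_bdd {φ ψ : ℍ → ℂ} {c : ℂ} (hc : c ≠ 0) (hPc : Tendsto P atImInfty (𝓝 c))
    (h : φ * P = ψ) (hψ : IsBoundedAtImInfty ψ) : IsBoundedAtImInfty φ := by
  have h1 : Tendsto (fun z => (P z)⁻¹) atImInfty (𝓝 c⁻¹) := hPc.inv₀ hc
  have h2 : (fun z => (P z)⁻¹) =O[atImInfty] (1 : ℍ → ℝ) := h1.isBigO_one ℝ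
  have h3 : (fun z => ψ z * (P z)⁻¹) =O[atImInfty] (1 : ℍ → ℝ) := by
    have h4 := IsBigO.mul hψ h2
    have e : ((fun x => (1 : ℍ → ℝ) x * (1 : ℍ → ℝ) x)) = (1 : ℍ → ℝ) := by
      ext x; simp
    rw [e] at h4
    exact h4
  refine h3.congr' ?_ EventuallyEq.rfl
  filter_upwards [hPc.eventually_ne hc] with z hz
  rw [← h]
  simp [hz]

theorem division_zero {φ ψ : ℍ → ℂ} {c : ℂ} (hc : c ≠ 0) (hPc : Tendsto P atImInfty (𝓝 c))
    (h : φ * P = ψ) (hψ : IsZeroAtImInfty ψ) : IsZeroAtImInfty φ := by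
  have h1 : Tendsto (fun z => (P z)⁻¹) atImInfty (𝓝 c⁻¹) := hPc.inv₀ hc
  have h3 : Tendsto (fun z => ψ z * (P z)⁻¹) atImInfty (𝓝 (0 * c⁻¹)) := Tendsto.mul hψ h1
  rw [zero_mul] at h3
  refine h3.congr' ?_
  filter_upwards [hPc.eventually_ne hc] with z hz
  rw [← h]
  simp [hz]

/-- **Division lemma** for modular forms. -/
theorem division (hP : IsDivisor w P τ₀) {c : ℂ} (hc : c ≠ 0) (hPc : Tendsto P atImInfty (𝓝 c))
    (G : ModularForm 𝒢 K) (hG : ∀ q : 𝒬, quotientFunc G q τ₀ = 0) :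
    ∃ G' : ModularForm 𝒢 (K - w), ∀ z, G z = P z * G' z := by
  obtain ⟨G', hG', hGv, hinv⟩ := division_fun hP G hG
  refine ⟨{ toFun := G'
            slash_action_eq' := by
              rintro _ ⟨γ, hγ, rfl⟩
              exact hinv γ hγ
            holo' := hG'
            bdd_at_cusps' := by
              intro x hx
              rw [Subgroup.IsArithmetic.isCusp_iff_isCusp_SL2Z] at hx
              rw [OnePoint.isBoundedAt_iff_forall_SL2Z hx]
              intro γ _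
              exact division_bdd hc hPc (division_slash_mul hGv γ)
                (ModularFormClass.bdd_at_infty_slash G γ) }, fun z => ?_⟩
  rw [← hGv z, mul_comm]
  rfl

/-- **Division lemma** for cusp forms. -/
theorem division_cusp (hP : IsDivisor w P τ₀) {c : ℂ} (hc : c ≠ 0)
    (hPc : Tendsto P atImInfty (𝓝 c))
    (G : CuspForm 𝒢 K) (hG : ∀ q : 𝒬, quotientFunc G q τ₀ = 0) :
    ∃ G' : CuspForm 𝒢 (K - w), ∀ z, G z = P z * G' z := by
  obtain ⟨G', hG', hGv, hinv⟩ := division_fun hP G hG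
  refine ⟨{ toFun := G'
            slash_action_eq' := by
              rintro _ ⟨γ, hγ, rfl⟩
              exact hinv γ hγ
            holo' := hG'
            zero_at_cusps' := by
              intro x hx
              rw [Subgroup.IsArithmetic.isCusp_iff_isCusp_SL2Z] at hx
              rw [OnePoint.isZeroAt_iff_forall_SL2Z hx]
              intro γ _
              exact division_zero hc hPc (division_slash_mul hGv γ)
                (CuspFormClass.zero_at_infty_slash G γ) }, fun z => ?_⟩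
  rw [← hGv z, mul_comm]
  rfl

end main

end Fermat.Agent.S20
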