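import Mathlib
import Fermat.Agent.S20.Division
import Fermat.Agent.S23.LevelOne
import Fermat.Agent.X0.JFun

/-!
# The level one divisors `E₄`, `E₆`, `E₄³ - j(τ₀) Δ`
-/

set_option autoImplicit false

open UpperHalfPlane hiding I
open ModularForm EisensteinSeries Complex Filter Topology Manifold
open Derivative MatrixGroups CongruenceSubgroup
open Fermat.Agent.S23 Fermat.Agent.X0
open scoped Real

namespace Fermat.Agent.S20

local notation "Δ" => ModularForm.discriminant

lemma divisors_exists_ab {K : ℤ} (h0 : 0 ≤ K) (h2 : K ≠ 2) (hev : Even K) :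
    ∃ a b : ℕ, 4 * (a : ℤ) + 6 * (b : ℤ) = K := by
  by_cases h4 : 4 ≤ K
  · exact levelOne_exists_ab h4 hev
  · obtain ⟨m, hm⟩ := hev
    exact ⟨0, 0, by omega⟩

/-- uniform reduction: division by `P` in the level one ring follows from the small weights. -/
theorem divisors_dvd_of_base {w : ℤ} (P : ModularForm 𝒮ℒ w) (τ₀ : ℍ) (hw : Even w)
    (hP0 : P τ₀ = 0) (hP1 : (qExpansion 1 P).coeff 0 = 1)
    (hbase : ∀ n : ℤ, (n < w ∨ n = w + 2) → ∀ a : ModularForm 𝒮ℒ n, a τ₀ = 0 → a = 0) (N : ℕ) :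
    ∀ n : ℤ, n < N → ∀ a : ModularForm 𝒮ℒ n, a τ₀ = 0 →
      ∃ b : ModularForm 𝒮ℒ (n - w), ∀ z, a z = P z * b z := by
  induction N with
  | zero =>
    intro n hn a _
    refine ⟨0, fun z => ?_⟩
    rw [ModularFormClass.levelOne_neg_weight_eq_zero (by simpa using hn) a]
    simp
  | succ N ih =>
    intro n hn a ha
    rcases Int.even_or_odd n with hev | hodd
    swap
    · refine ⟨0, fun z => ?_⟩
      rw [ModularForm.levelOne_odd_weight_eq_zero hodd a]
      simp
    by_cases hb : n < w ∨ n = w + 2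
    · refine ⟨0, fun z => ?_⟩
      rw [hbase n hb a ha]
      simp
    push Not at hb
    obtain ⟨α, β, hab⟩ := divisors_exists_ab (K := n - w) (by omega) (by omega) (hev.sub hw)
    obtain rfl : n = w + (4 * (α : ℤ) + 6 * (β : ℤ)) := by omega
    obtain ⟨M, hM, hMq⟩ := levelOne_monomial α β
    set c : ℂ := (qExpansion 1 a).coeff 0 with hc
    have hM0 : (qExpansion 1 M).coeff 0 = 1 := by
      rw [hMq]
      simp only [PowerSeries.coeff_zero_eq_constantCoeff, map_mul, map_pow]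
      rw [← PowerSeries.coeff_zero_eq_constantCoeff_apply,
        ← PowerSeries.coeff_zero_eq_constantCoeff_apply,
        E_qExpansion_coeff_zero _ ⟨2, rfl⟩, E_qExpansion_coeff_zero _ ⟨3, rfl⟩]
      simp
    have hPM0 : (qExpansion 1 (P.mul M)).coeff 0 = 1 := by
      rw [ModularForm.qExpansion_mul one_pos one_mem_strictPeriods_SL]
      simp only [PowerSeries.coeff_zero_eq_constantCoeff, map_mul]
      rw [← PowerSeries.coeff_zero_eq_constantCoeff_apply,
        ← PowerSeries.coeff_zero_eq_constantCoeff_apply, hP1, hM0, one_mul]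
    have hcusp : (qExpansion 1 ⇑(a - c • P.mul M)).coeff 0 = 0 := by
      rw [FunLike.coe_sub, ModularForm.qExpansion_sub one_pos one_mem_strictPeriods_SL,
        FunLike.coe_smul, ModularForm.qExpansion_smul one_pos one_mem_strictPeriods_SL, map_sub,
        PowerSeries.coeff_smul, hPM0]
      simp [hc]
    have hdec := discriminant_mul_discriminantEquiv (toCuspForm (a - c • P.mul M) hcusp)
    set a' := CuspForm.discriminantEquiv (toCuspForm (a - c • P.mul M) hcusp) with ha'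
    have hdec' : ∀ z, Δ z * a' z = a z - c * (P z * M z) := fun z => congrFun hdec z
    have ha'0 : a' τ₀ = 0 := by
      have := hdec' τ₀
      rw [ha, hP0] at this
      simpa [discriminant_ne_zero τ₀] using this
    obtain ⟨b', hb'⟩ := ih _ (by omega) a' ha'0
    refine ⟨ModularForm.mcast (by ring) (c • M) + ModularForm.mcast (by ring)
      ((CuspForm.discriminant : ModularForm 𝒮ℒ 12).mul b'), fun z => ?_⟩
    have h1 := hdec' z
    rw [hb' z] at h1
    simp only [add_apply, ModularForm.mcast_apply, smul_apply, smul_eq_mul, ModularForm.coe_mul,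
      Pi.mul_apply]
    have h2 : (CuspForm.discriminant : ModularForm 𝒮ℒ 12) z = Δ z := rfl
    rw [h2]
    linear_combination -h1

/-- weights with a unique monomial which does not vanish at `τ₀` -/
lemma divisors_base {n : ℤ} {τ₀ : ℍ} (a : ModularForm 𝒮ℒ n) (ha : a τ₀ = 0)
    (huniq : ∀ p q : ℕ × ℕ, 4 * (p.1 : ℤ) + 6 * (p.2 : ℤ) = n → 4 * (q.1 : ℤ) + 6 * (q.2 : ℤ) = n →
      p = q)
    (hne : ∀ p : ℕ × ℕ, 4 * (p.1 : ℤ) + 6 * (p.2 : ℤ) = n → E₄ τ₀ ^ p.1 * E₆ τ₀ ^ p.2 ≠ 0) :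
    a = 0 := by
  obtain ⟨s, x, hs, hF⟩ := levelOne_span n a
  have key : ∀ p ∈ s, x p = 0 := by
    intro p hp
    have h1 : ∑ q ∈ s, x q * (E₄ τ₀ ^ q.1 * E₆ τ₀ ^ q.2) = x p * (E₄ τ₀ ^ p.1 * E₆ τ₀ ^ p.2) := by
      apply Finset.sum_eq_single_of_mem p hp
      intro q hq hqp
      exact absurd (huniq q p (hs q hq) (hs p hp)) hqp
    rw [← hF, ha] at h1
    exact (mul_eq_zero.mp h1.symm).resolve_right (hne p (hs p hp))
  ext z
  rw [hF z]
  simp only [zero_apply]
  apply Finset.sum_eq_zero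
  intro p hp
  rw [key p hp, zero_mul]

lemma divisors_deriv_ne {F : ℍ → ℂ} {z : ℍ} (h : D F z ≠ 0) : deriv (F ∘ ofComplex) z ≠ 0 := by
  intro h0
  apply h
  rw [normalizedDerivOfComplex, h0, mul_zero]

lemma divisors_E4_ne {τ₀ : ℍ} (h : E₆ τ₀ = 0) : E₄ τ₀ ≠ 0 := by
  intro h4
  have := jf_disc_eq τ₀
  rw [h, h4] at this
  simp [discriminant_ne_zero τ₀] at this

lemma divisors_E6_ne {τ₀ : ℍ} (h : E₄ τ₀ = 0) : E₆ τ₀ ≠ 0 := by
  intro h6
  have := jf_disc_eq τ₀
  rw [h, h6] at this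
  simp [discriminant_ne_zero τ₀] at this

/-- `E₆` generates the level one forms vanishing at any of its zeros. -/
theorem isDivisor_E6 {τ₀ : ℍ} (h : E₆ τ₀ = 0) : IsDivisor 6 E₆ τ₀ where
  zero := h
  simple := by
    apply divisors_deriv_ne
    rw [jf_D_E6, h]
    have := divisors_E4_ne h
    simp [this]
  dvd n a ha := by
    refine divisors_dvd_of_base E₆ τ₀ (by decide) h jf_E6_coeff_zero ?_ (n.toNat + 1) n
      (by have := Int.self_le_toNat n; push_cast; omega) a ha
    intro m hm b hb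
    refine divisors_base b hb ?_ ?_
    · rintro ⟨p1, p2⟩ ⟨q1, q2⟩ hp hq
      simp only at hp hq
      ext <;> simp only <;> omega
    · rintro ⟨p1, p2⟩ hp
      simp only at hp ⊢
      obtain rfl : p2 = 0 := by omega
      simpa using pow_ne_zero _ (divisors_E4_ne h)

/-- `E₄` generates the level one forms vanishing at any of its zeros. -/
theorem isDivisor_E4 {τ₀ : ℍ} (h : E₄ τ₀ = 0) : IsDivisor 4 E₄ τ₀ where
  zero := h
  simple := by
    apply divisors_deriv_ne
    rw [jf_D_E4, h]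
    have := divisors_E6_ne h
    simp [this]
  dvd n a ha := by
    refine divisors_dvd_of_base E₄ τ₀ (by decide) h jf_E4_coeff_zero ?_ (n.toNat + 1) n
      (by have := Int.self_le_toNat n; push_cast; omega) a ha
    intro m hm b hb
    refine divisors_base b hb ?_ ?_
    · rintro ⟨p1, p2⟩ ⟨q1, q2⟩ hp hq
      simp only at hp hq
      ext <;> simp only <;> omega
    · rintro ⟨p1, p2⟩ hp
      simp only at hp ⊢
      obtain rfl : p1 = 0 := by omega
      simpa using pow_ne_zero _ (divisors_E6_ne h)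

theorem divisors_D_jfForm (w : ℂ) (z : ℍ) :
    D (jfForm w) z = E2 z * jfForm w z - E₄ z ^ 2 * E₆ z := by
  have h1 : (jfForm w : ℍ → ℂ) = (E₄ : ℍ → ℂ) ^ 3 - w • Δ := by
    ext u
    simp [jfForm_apply]
  rw [h1, normalizedDerivOfComplex_sub _ _ ((ModularFormClass.holo E₄).pow 3)
    (jf_disc_mdiff.const_smul w), normalizedDerivOfComplex_smul _ _ jf_disc_mdiff,
    normalizedDerivOfComplex_pow (⇑E₄) 3 (ModularFormClass.holo E₄)]
  simp only [Pi.sub_apply, Pi.mul_apply, Pi.pow_apply, Pi.smul_apply, smul_eq_mul, jf_D_E4,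
    jf_D_disc]
  push_cast
  simp only [Pi.ofNat_apply]
  ring

/-- `E₄³ - j(τ₀) Δ` generates the level one forms vanishing at a generic `τ₀`. -/
theorem isDivisor_jfForm {τ₀ : ℍ} (h4 : E₄ τ₀ ≠ 0) (h6 : E₆ τ₀ ≠ 0) :
    IsDivisor 12 (jfForm (jFun τ₀)) τ₀ where
  zero := by rw [jfForm_eq, sub_self, mul_zero]
  simple := by
    apply divisors_deriv_ne
    rw [divisors_D_jfForm, jfForm_eq, sub_self, mul_zero, mul_zero, zero_sub]
    exact neg_ne_zero.mpr (mul_ne_zero (pow_ne_zero _ h4) h6)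
  dvd n a ha := by
    refine divisors_dvd_of_base (jfForm (jFun τ₀)) τ₀ (by decide)
      (by rw [jfForm_eq, sub_self, mul_zero])
      (tendsto_nhds_unique (jf_tendsto_valueAtInfty _) (jfForm_tendsto _)) ?_ (n.toNat + 1) n
      (by have := Int.self_le_toNat n; push_cast; omega) a ha
    intro m hm b hb
    refine divisors_base b hb ?_ ?_
    · rintro ⟨p1, p2⟩ ⟨q1, q2⟩ hp hq
      simp only at hp hq
      ext <;> simp only <;> omega
    · rintro ⟨p1, p2⟩ _
      exact mul_ne_zero (pow_ne_zero _ h4) (pow_ne_zero _ h6)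

/-- every point of `ℍ` has a level one divisor, of weight `4`, `6` or `12`. -/
theorem exists_isDivisor (τ₀ : ℍ) : ∃ (w : ℤ) (P : ModularForm 𝒮ℒ w), 0 < w ∧ IsDivisor w P τ₀ ∧
    Tendsto P atImInfty (𝓝 1) := by
  by_cases h4 : E₄ τ₀ = 0
  · exact ⟨4, E₄, by norm_num, isDivisor_E4 h4, jf_E4_tendsto⟩
  by_cases h6 : E₆ τ₀ = 0
  · exact ⟨6, E₆, by norm_num, isDivisor_E6 h6, jf_E6_tendsto⟩
  exact ⟨12, _, by norm_num, isDivisor_jfForm h4 h6, jfForm_tendsto _⟩

end Fermat.Agent.S20
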