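import Mathlib

set_option autoImplicit false

open UpperHalfPlane hiding I
open Function Complex Filter
open scoped Manifold Real MatrixGroups ModularForm
open CongruenceSubgroup Matrix.SpecialLinearGroup

namespace Fermat.Agent.S20

/-- `f` is (the underlying function of) a modular form of weight `k` on `Γ₀(N)`. -/
structure IsMF (N : ℕ) (k : ℤ) (f : ℍ → ℂ) : Prop where
  hol : MDiff f
  inv : ∀ γ ∈ Gamma0 N, f ∣[k] γ = f
  bdd : ∀ σ : SL(2, ℤ), IsBoundedAtImInfty (f ∣[k] σ)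

/-- `f` is (the underlying function of) a cusp form of weight `k` on `Γ₀(N)`. -/
structure IsCF (N : ℕ) (k : ℤ) (f : ℍ → ℂ) : Prop where
  hol : MDiff f
  inv : ∀ γ ∈ Gamma0 N, f ∣[k] γ = f
  zero : ∀ σ : SL(2, ℤ), IsZeroAtImInfty (f ∣[k] σ)

variable {N : ℕ} {k l : ℤ} {f g : ℍ → ℂ}

theorem IsCF.isMF (h : IsCF N k f) : IsMF N k f :=
  ⟨h.hol, h.inv, fun σ => (h.zero σ).isBoundedAtImInfty⟩

/-- The bundled modular form attached to `IsMF`. -/
noncomputable def IsMF.toForm [NeZero N] (h : IsMF N k f) : ModularForm (Gamma0 N) k where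
  toFun := f
  slash_action_eq' γ hγ := by
    obtain ⟨γ', hγ', rfl⟩ := hγ
    exact h.inv γ' hγ'
  holo' := h.hol
  bdd_at_cusps' hc := by
    rw [Subgroup.IsArithmetic.isCusp_iff_isCusp_SL2Z] at hc
    rw [OnePoint.isBoundedAt_iff_forall_SL2Z hc]
    intro γ _
    exact h.bdd γ

@[simp] theorem IsMF.coe_toForm [NeZero N] (h : IsMF N k f) : ⇑h.toForm = f := rfl

/-- The bundled cusp form attached to `IsCF`. -/
noncomputable def IsCF.toForm [NeZero N] (h : IsCF N k f) : CuspForm (Gamma0 N) k where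
  toFun := f
  slash_action_eq' γ hγ := by
    obtain ⟨γ', hγ', rfl⟩ := hγ
    exact h.inv γ' hγ'
  holo' := h.hol
  zero_at_cusps' hc := by
    rw [Subgroup.IsArithmetic.isCusp_iff_isCusp_SL2Z] at hc
    rw [OnePoint.isZeroAt_iff_forall_SL2Z hc]
    intro γ _
    exact h.zero γ

@[simp] theorem IsCF.coe_toForm [NeZero N] (h : IsCF N k f) : ⇑h.toForm = f := rfl

theorem isMF_coe [NeZero N] (F : ModularForm (Gamma0 N) k) : IsMF N k ⇑F where
  hol := ModularFormClass.holo F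
  inv γ hγ := SlashInvariantFormClass.slash_action_eq F _ (Subgroup.mem_map_of_mem _ hγ)
  bdd σ := ModularFormClass.bdd_at_infty_slash F σ

theorem isCF_coe [NeZero N] (F : CuspForm (Gamma0 N) k) : IsCF N k ⇑F where
  hol := CuspFormClass.holo F
  inv γ hγ := SlashInvariantFormClass.slash_action_eq F _ (Subgroup.mem_map_of_mem _ hγ)
  zero σ := CuspFormClass.zero_at_infty_slash F σ

theorem isMF_one_coe (F : ModularForm 𝒮ℒ k) : IsMF 1 k ⇑F where
  hol := ModularFormClass.holo F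
  inv γ _ := SlashInvariantFormClass.slash_action_eq F _ ⟨γ, rfl⟩
  bdd σ := ModularFormClass.bdd_at_infty_slash F σ

theorem isCF_one_coe (F : CuspForm 𝒮ℒ k) : IsCF 1 k ⇑F where
  hol := CuspFormClass.holo F
  inv γ _ := SlashInvariantFormClass.slash_action_eq F _ ⟨γ, rfl⟩
  zero σ := CuspFormClass.zero_at_infty_slash F σ

theorem mem_Gamma0_one (γ : SL(2, ℤ)) : γ ∈ Gamma0 1 := by
  rw [Gamma0_mem]
  exact Subsingleton.elim _ _

/-- The bundled level one form. -/
noncomputable def IsMF.toFormOne (h : IsMF 1 k f) : ModularForm 𝒮ℒ k where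
  toFun := f
  slash_action_eq' γ hγ := by
    obtain ⟨γ', rfl⟩ := hγ
    exact h.inv γ' (mem_Gamma0_one γ')
  holo' := h.hol
  bdd_at_cusps' hc := by
    rw [OnePoint.isBoundedAt_iff_forall_SL2Z hc]
    intro γ _
    exact h.bdd γ

@[simp] theorem IsMF.coe_toFormOne (h : IsMF 1 k f) : ⇑h.toFormOne = f := rfl

/-- The bundled level one cusp form. -/
noncomputable def IsCF.toFormOne (h : IsCF 1 k f) : CuspForm 𝒮ℒ k where
  toFun := f
  slash_action_eq' γ hγ := by
    obtain ⟨γ', rfl⟩ := hγ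
    exact h.inv γ' (mem_Gamma0_one γ')
  holo' := h.hol
  zero_at_cusps' hc := by
    rw [OnePoint.isZeroAt_iff_forall_SL2Z hc]
    intro γ _
    exact h.zero γ

@[simp] theorem IsCF.coe_toFormOne (h : IsCF 1 k f) : ⇑h.toFormOne = f := rfl

theorem IsMF.inv_one (h : IsMF 1 k f) (γ : SL(2, ℤ)) : f ∣[k] γ = f := h.inv γ (mem_Gamma0_one γ)

theorem IsCF.inv_one (h : IsCF 1 k f) (γ : SL(2, ℤ)) : f ∣[k] γ = f := h.inv γ (mem_Gamma0_one γ)

theorem IsMF.of_one (h : IsMF 1 k f) : IsMF N k f :=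
  ⟨h.hol, fun γ _ => h.inv_one γ, h.bdd⟩

theorem IsCF.of_one (h : IsCF 1 k f) : IsCF N k f :=
  ⟨h.hol, fun γ _ => h.inv_one γ, h.zero⟩

theorem IsMF.congr_weight (h : IsMF N k f) (hkl : k = l) : IsMF N l f := hkl ▸ h

theorem IsCF.congr_weight (h : IsCF N k f) (hkl : k = l) : IsCF N l f := hkl ▸ h

theorem isMF_zero : IsMF N k 0 :=
  ⟨mdifferentiable_const, fun γ _ => SlashAction.zero_slash _ _, fun σ => by
    rw [SlashAction.zero_slash]
    exact Filter.const_boundedAtFilter _ (0 : ℂ)⟩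

theorem IsMF.add (hf : IsMF N k f) (hg : IsMF N k g) : IsMF N k (f + g) :=
  ⟨hf.hol.add hg.hol, fun γ hγ => by rw [SlashAction.add_slash, hf.inv γ hγ, hg.inv γ hγ],
    fun σ => by rw [SlashAction.add_slash]; exact (hf.bdd σ).add (hg.bdd σ)⟩

theorem IsCF.add (hf : IsCF N k f) (hg : IsCF N k g) : IsCF N k (f + g) :=
  ⟨hf.hol.add hg.hol, fun γ hγ => by rw [SlashAction.add_slash, hf.inv γ hγ, hg.inv γ hγ],
    fun σ => by rw [SlashAction.add_slash]; exact (hf.zero σ).add (hg.zero σ)⟩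

theorem IsMF.smul (c : ℂ) (hf : IsMF N k f) : IsMF N k (c • f) :=
  ⟨hf.hol.const_smul c, fun γ hγ => by rw [ModularForm.SL_smul_slash, hf.inv γ hγ],
    fun σ => by rw [ModularForm.SL_smul_slash]; exact (hf.bdd σ).const_smul_left c⟩

theorem IsCF.smul (c : ℂ) (hf : IsCF N k f) : IsCF N k (c • f) :=
  ⟨hf.hol.const_smul c, fun γ hγ => by rw [ModularForm.SL_smul_slash, hf.inv γ hγ],
    fun σ => by rw [ModularForm.SL_smul_slash]; exact (hf.zero σ).smul c⟩

theorem IsMF.mul (hf : IsMF N k f) (hg : IsMF N l g) : IsMF N (k + l) (f * g) :=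
  ⟨hf.hol.mul hg.hol, fun γ hγ => by rw [ModularForm.mul_slash_SL2, hf.inv γ hγ, hg.inv γ hγ],
    fun σ => by rw [ModularForm.mul_slash_SL2]; exact (hf.bdd σ).mul (hg.bdd σ)⟩

theorem IsCF.mul_isMF (hf : IsCF N k f) (hg : IsMF N l g) : IsCF N (k + l) (f * g) :=
  ⟨hf.hol.mul hg.hol, fun γ hγ => by rw [ModularForm.mul_slash_SL2, hf.inv γ hγ, hg.inv γ hγ],
    fun σ => by
      rw [ModularForm.mul_slash_SL2]
      exact (hf.zero σ).mul_boundedAtFilter (hg.bdd σ)⟩

theorem isMF_one : IsMF N 0 1 :=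
  ⟨mdifferentiable_const, fun γ _ => ModularForm.is_invariant_one γ, fun σ => by
    rw [ModularForm.is_invariant_one]
    exact Filter.const_boundedAtFilter _ (1 : ℂ)⟩

theorem IsMF.pow (hf : IsMF N k f) (n : ℕ) : IsMF N (n * k) (f ^ n) := by
  induction n with
  | zero => simpa using isMF_one
  | succ n ih =>
    rw [pow_succ]
    exact (ih.mul hf).congr_weight (by push_cast; ring)

theorem IsMF.sum {ι : Type*} (s : Finset ι) {F : ι → ℍ → ℂ} (h : ∀ i ∈ s, IsMF N k (F i)) :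
    IsMF N k (∑ i ∈ s, F i) := by
  classical
  induction s using Finset.induction_on with
  | empty => simpa using isMF_zero
  | insert a s ha ih =>
    rw [Finset.sum_insert ha]
    exact (h a (Finset.mem_insert_self a s)).add (ih fun i hi => h i (Finset.mem_insert_of_mem hi))

end Fermat.Agent.S20
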