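import Mathlib
import Fermat.Agent.S20.Defs

set_option autoImplicit false

open UpperHalfPlane hiding I
open Function Complex Filter
open scoped Manifold Real MatrixGroups ModularForm
open CongruenceSubgroup Matrix.SpecialLinearGroup EisensteinSeries ModularForm

namespace Fermat.Agent.S20

local notation "Δ" => ModularForm.discriminant

variable {N : ℕ} {k l : ℤ} {f g : ℍ → ℂ}

/-! ### Vanishing results -/

theorem IsMF.eq_zero_of_neg [NeZero N] (h : IsMF N k f) (hk : k < 0) : f = 0 := by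
  have := ModularForm.isZero_of_neg_weight hk h.toForm
  have h2 := congrArg (fun F : ModularForm (Gamma0 N) k => (⇑F : ℍ → ℂ)) this
  simpa using h2

theorem IsMF.const_of_weight_zero [NeZero N] (h : IsMF N 0 f) : ∃ c : ℂ, f = fun _ => c := by
  obtain ⟨c, hc⟩ := ModularForm.eq_const_of_weight_zero h.toForm
  exact ⟨c, hc⟩

theorem neg_one_mem_Gamma0 (N : ℕ) : (-1 : SL(2, ℤ)) ∈ Gamma0 N := by
  rw [Gamma0_mem]
  simp

theorem IsMF.eq_zero_of_odd (h : IsMF N k f) (hk : Odd k) : f = 0 := by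
  funext τ
  have h1 := congrFun (h.inv (-1) (neg_one_mem_Gamma0 N)) τ
  rw [ModularForm.SL_slash_apply] at h1
  have h3 : ((-1 : SL(2, ℤ)) • τ) = τ := by
    ext
    simp
  have h4 : denom ((-1 : SL(2, ℤ)) : GL (Fin 2) ℝ) τ = -1 := by
    simp [UpperHalfPlane.denom]
  rw [h3, h4, (Odd.neg hk).neg_one_zpow] at h1
  have h7 : (2 : ℂ) * f τ = 0 := by linear_combination -h1
  simpa using h7

theorem IsCF.eq_zero_of_nonpos [NeZero N] (h : IsCF N k f) (hk : k ≤ 0) : f = 0 := by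
  rcases hk.lt_or_eq with hk | rfl
  · exact h.isMF.eq_zero_of_neg hk
  · obtain ⟨c, rfl⟩ := h.isMF.const_of_weight_zero
    have h1 := h.zero 1
    rw [SlashAction.slash_one] at h1
    have h2 : Tendsto (fun _ : ℍ => c) atImInfty (nhds 0) := h1
    have h3 : c = 0 := tendsto_nhds_unique tendsto_const_nhds h2
    rw [h3]
    rfl

theorem IsCF.eq_zero_of_lt_twelve (h : IsCF 1 k f) (hk : k < 12) : f = 0 := by
  have h1 := CuspForm.rank_eq_zero_of_weight_lt_twelve hk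
  have h2 := rank_zero_iff_forall_zero.mp h1 h.toFormOne
  have h3 := congrArg (fun F : CuspForm 𝒮ℒ k => (⇑F : ℍ → ℂ)) h2
  simpa using h3

theorem IsCF.eq_smul_delta (h : IsCF 1 12 f) : ∃ c : ℂ, f = c • Δ := by
  obtain ⟨c, hc⟩ := CuspForm.exists_smul_discriminant_of_weight_eq_twelve h.toFormOne
  refine ⟨c, ?_⟩
  have h3 := congrArg (fun F : CuspForm 𝒮ℒ 12 => (⇑F : ℍ → ℂ)) hc
  exact h3.symm

/-! ### The basic level one forms -/

theorem isMF_E4 : IsMF 1 4 E₄ := isMF_one_coe E₄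

theorem isMF_E6 : IsMF 1 6 E₆ := isMF_one_coe E₆

theorem isCF_delta : IsCF 1 12 Δ := isCF_one_coe CuspForm.discriminant

/-! ### Conjugates -/

/-- The coset space. -/
abbrev Q (N : ℕ) := SL(2, ℤ) ⧸ Gamma0 N

noncomputable instance [NeZero N] : Fintype (Q N) := Subgroup.fintypeQuotientOfFiniteIndex

noncomputable instance : DecidableEq (Q N) := Classical.decEq _

/-- The conjugates of a modular form. -/
noncomputable def cj (k : ℤ) (f : ℍ → ℂ) (q : Q N) : ℍ → ℂ := f ∣[k] (Quotient.out q)⁻¹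

theorem cj_mk (hf : ∀ γ ∈ Gamma0 N, f ∣[k] γ = f) (g : SL(2, ℤ)) :
    cj k f (QuotientGroup.mk g : Q N) = f ∣[k] g⁻¹ := by
  obtain ⟨h, hh⟩ := QuotientGroup.mk_out_eq_mul (Gamma0 N) g
  unfold cj
  rw [hh, mul_inv_rev, SlashAction.slash_mul, hf _ (inv_mem h.2)]

theorem cj_slash (hf : ∀ γ ∈ Gamma0 N, f ∣[k] γ = f) (q : Q N) (γ : SL(2, ℤ)) :
    cj k f q ∣[k] γ = cj k f (γ⁻¹ • q) := by
  induction q using QuotientGroup.induction_on with
  | H g =>
    rw [MulAction.Quotient.smul_coe, cj_mk hf, cj_mk hf, ← SlashAction.slash_mul]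
    congr 1
    simp [mul_inv_rev]

theorem cj_smul_apply (hf : ∀ γ ∈ Gamma0 N, f ∣[k] γ = f) (q : Q N) (γ : SL(2, ℤ)) (τ : ℍ) :
    cj k f q (γ • τ) = denom γ τ ^ k * cj k f (γ⁻¹ • q) τ := by
  rw [← cj_slash hf, ModularForm.SL_slash_apply, mul_comm, mul_assoc, ← zpow_add₀ (denom_ne_zero _ _)]
  simp

theorem cj_one (hf : ∀ γ ∈ Gamma0 N, f ∣[k] γ = f) :
    cj k f (QuotientGroup.mk 1 : Q N) = f := by
  rw [cj_mk hf]
  simp

theorem IsMF.cj_hol (hf : IsMF N k f) (q : Q N) : MDiff (cj k f q) :=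
  hf.hol.slash k _

theorem IsMF.cj_bdd (hf : IsMF N k f) (q : Q N) : IsBoundedAtImInfty (cj k f q) :=
  hf.bdd _

theorem IsCF.cj_zero (hf : IsCF N k f) (q : Q N) : IsZeroAtImInfty (cj k f q) :=
  hf.zero _

theorem cj_add (k : ℤ) (f g : ℍ → ℂ) (q : Q N) : cj k (f + g) q = cj k f q + cj k g q :=
  SlashAction.add_slash _ _ _ _

theorem cj_smul (k : ℤ) (c : ℂ) (f : ℍ → ℂ) (q : Q N) : cj k (c • f) q = c • cj k f q :=
  ModularForm.SL_smul_slash _ _ _ _

theorem cj_mul (k l : ℤ) (f g : ℍ → ℂ) (q : Q N) : cj (k + l) (f * g) q = cj k f q * cj l g q :=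
  ModularForm.mul_slash_SL2 _ _ _ _ _

theorem cj_of_one (hf : IsMF 1 k f) (q : Q N) : cj k f q = f := hf.inv_one _

theorem cj_sum {ι : Type*} (k : ℤ) (s : Finset ι) (F : ι → ℍ → ℂ) (q : Q N) :
    cj k (∑ i ∈ s, F i) q = ∑ i ∈ s, cj k (F i) q :=
  SlashAction.sum_slash _ _

/-- A function all of whose conjugates vanish at `τ` vanishes on the `SL(2,ℤ)`-orbit of `τ`. -/
theorem apply_smul_eq_zero (hf : ∀ γ ∈ Gamma0 N, f ∣[k] γ = f) {τ : ℍ}
    (h0 : ∀ q : Q N, cj k f q τ = 0) (γ : SL(2, ℤ)) : f (γ • τ) = 0 := by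
  have := cj_smul_apply hf (QuotientGroup.mk 1 : Q N) γ τ
  rw [cj_one hf, h0, mul_zero] at this
  exact this

end Fermat.Agent.S20
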