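import Mathlib
import Fermat.Agent.S20.Basic

set_option autoImplicit false

open UpperHalfPlane hiding I
open Function Complex Filter
open scoped Manifold Real MatrixGroups ModularForm
open CongruenceSubgroup Matrix.SpecialLinearGroup EisensteinSeries ModularForm

namespace Fermat.Agent.S20

/-- The elliptic point `ρ = e^{2πi/3}`. -/
noncomputable def ptRho : ℍ :=
  ⟨-1 / 2 + (Real.sqrt 3 / 2 : ℝ) * Complex.I, by simp⟩

/-- The elliptic element `U = S T = [0,-1;1,1]`. -/
def Um : SL(2, ℤ) := ModularGroup.S * ModularGroup.T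

theorem coe_ptRho : (ptRho : ℂ) = -1 / 2 + (Real.sqrt 3 / 2 : ℝ) * Complex.I := rfl

theorem ptRho_sq : (ptRho : ℂ) ^ 2 + (ptRho : ℂ) + 1 = 0 := by
  have h3 : ((Real.sqrt 3 : ℝ) : ℂ) ^ 2 = 3 := by
    rw [← Complex.ofReal_pow, Real.sq_sqrt (by norm_num)]
    norm_num
  rw [coe_ptRho]
  push_cast
  linear_combination (-1 / 4 : ℂ) * h3 + ((Real.sqrt 3 : ℂ) ^ 2 / 4) * Complex.I_sq

theorem Um_coe : (Um : Matrix (Fin 2) (Fin 2) ℤ) = !![0, -1; 1, 1] := by
  simp [Um, ModularGroup.S, ModularGroup.T]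

theorem denom_Um (τ : ℍ) : denom Um τ = (τ : ℂ) + 1 := by
  simp [denom, Um_coe]

theorem Um_smul_ptRho : Um • ptRho = ptRho := by
  ext
  rw [UpperHalfPlane.specialLinearGroup_apply]
  have h1 : (ptRho : ℂ) + 1 ≠ 0 := by
    rw [← denom_Um]
    exact denom_ne_zero _ _
  simp only [Um_coe]
  simp
  field_simp
  linear_combination -ptRho_sq

theorem isPrimitiveRoot_denom_Um : IsPrimitiveRoot (denom Um ptRho) 6 := by
  rw [denom_Um]
  have h := ptRho_sq
  set r : ℂ := (ptRho : ℂ) with hr
  have h2 : (r + 1) ^ 2 = r := by linear_combination h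
  have h3 : (r + 1) ^ 3 = -1 := by linear_combination (r + 2) * h
  refine IsPrimitiveRoot.mk_of_lt _ (by norm_num) (by linear_combination ((r + 1) ^ 3 - 1) * h3) ?_
  intro l hl0 hl6 hl
  interval_cases l
  · have : r = 0 := by linear_combination hl
    rw [this] at h
    norm_num at h
  · have : r = 1 := by linear_combination hl - h2
    rw [this] at h
    norm_num at h
  · rw [h3] at hl
    norm_num at hl
  · have : r = -2 := by linear_combination -hl + (r + 1) ^ 2 * h2 + r * h2 + h - h2 + h2 - (r+1)^2 * h2 + (r + 1) ^ 2 * h2 - r * h2 + r * h2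
    rw [this] at h
    norm_num at h
  · have : r = -1 := by linear_combination -hl + (r + 1) ^ 2 * h3 - h2
    rw [this] at h
    norm_num at h

theorem denom_S_I : denom ModularGroup.S UpperHalfPlane.I = Complex.I := by
  simp [denom, ModularGroup.S]

theorem S_smul_I : ModularGroup.S • UpperHalfPlane.I = UpperHalfPlane.I := by
  rw [UpperHalfPlane.modular_S_smul]
  ext
  simp

theorem isPrimitiveRoot_denom_S : IsPrimitiveRoot (denom ModularGroup.S UpperHalfPlane.I) 4 := by
  rw [denom_S_I]
  exact Complex.isPrimitiveRoot_I  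

end Fermat.Agent.S20
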