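import Mathlib
import Fermat.Agent.S20.Points
import Fermat.Agent.S20.Divisors

/-!
# Division lemmas (module DIV of the S20 project)
-/

set_option autoImplicit false

open UpperHalfPlane hiding I
open Function Complex Filter
open scoped Manifold Real MatrixGroups ModularForm
open CongruenceSubgroup Matrix.SpecialLinearGroup EisensteinSeries ModularForm

namespace Fermat.Agent.S20

local notation "Δ" => ModularForm.discriminant

variable {N : ℕ} [NeZero N] {k : ℤ} {f : ℍ → ℂ}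

/-- The level one form of weight 12 vanishing at `t`. -/
noncomputable def Pform (t : ℍ) : ℍ → ℂ := (E₆ t ^ 2) • (⇑E₄) ^ 3 - (E₄ t ^ 3) • (⇑E₆) ^ 2

theorem E4_ptRho : E₄ ptRho = 0 := X0.jf_E4_rho

theorem E6_I : E₆ UpperHalfPlane.I = 0 := X0.jf_E6_I

/-- bridge from `Division.division` to the function level API -/
theorem div_bridge {w : ℤ} {P : ModularForm 𝒮ℒ w} {t : ℍ} (hP : IsDivisor w P t)
    (hP1 : Tendsto P atImInfty (nhds 1)) (hf : IsMF N k f) (h0 : ∀ q : Q N, cj k f q t = 0) :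
    ∃ g : ℍ → ℂ, IsMF N (k - w) g ∧ f = ⇑P * g := by
  obtain ⟨G', hG'⟩ := division (Γ := Gamma0 N) hP one_ne_zero hP1 hf.toForm (by
    intro q
    induction q using Quotient.inductionOn with
    | h h =>
      obtain ⟨_, γ, rfl⟩ := h
      rw [SlashInvariantForm.quotientFunc_mk]
      have h1 := apply_smul_eq_zero hf.inv h0 γ⁻¹
      change ((f : ℍ → ℂ) ∣[k] (mapGL ℝ γ)⁻¹) t = 0
      rw [← map_inv]
      change (f ∣[k] γ⁻¹) t = 0
      rw [ModularForm.SL_slash_apply, h1, zero_mul])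
  exact ⟨G', isMF_coe G', funext hG'⟩

theorem div_Pform_eq (t z : ℍ) : Pform t z = -(1728 * Δ t) * X0.jfForm (X0.jFun t) z := by
  have h1 := X0.jf_disc_eq t
  have h2 := X0.jf_disc_eq z
  have h3 := discriminant_ne_zero t
  rw [X0.jfForm_apply, X0.jFun]
  simp only [Pform, Pi.sub_apply, Pi.smul_apply, Pi.pow_apply, smul_eq_mul]
  field_simp
  linear_combination (E₄ z ^ 3) * h1 - (E₄ t ^ 3) * h2

/-- division at a generic point -/
theorem div_generic (t : ℍ) (h4 : E₄ t ≠ 0) (h6 : E₆ t ≠ 0) (hf : IsMF N k f)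
    (h0 : ∀ q : Q N, cj k f q t = 0) : ∃ g : ℍ → ℂ, IsMF N (k - 12) g ∧ f = Pform t * g := by
  obtain ⟨g, hg, hfg⟩ := div_bridge (isDivisor_jfForm h4 h6) (X0.jfForm_tendsto _) hf h0
  refine ⟨(-(1728 * Δ t))⁻¹ • g, hg.smul _, ?_⟩
  funext z
  have h3 := discriminant_ne_zero t
  rw [hfg]
  simp only [Pi.mul_apply, Pi.smul_apply, smul_eq_mul, div_Pform_eq]
  field_simp

/-- division at `ρ` -/
theorem div_E4 (hf : IsMF N k f) (h0 : ∀ q : Q N, cj k f q ptRho = 0) :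
    ∃ g : ℍ → ℂ, IsMF N (k - 4) g ∧ f = ⇑E₄ * g :=
  div_bridge (isDivisor_E4 E4_ptRho) X0.jf_E4_tendsto hf h0

/-- division at `i` -/
theorem div_E6 (hf : IsMF N k f) (h0 : ∀ q : Q N, cj k f q UpperHalfPlane.I = 0) :
    ∃ g : ℍ → ℂ, IsMF N (k - 6) g ∧ f = ⇑E₆ * g :=
  div_bridge (isDivisor_E6 E6_I) X0.jf_E6_tendsto hf h0

/-- a level one form vanishing at a zero of `E₄` vanishes at `ρ` -/
theorem zero_at_rho {H : ℍ → ℂ} (hH : IsMF 1 k H) (t : ℍ) (h4 : E₄ t = 0) (hHt : H t = 0) :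
    H ptRho = 0 := by
  obtain ⟨b, hb⟩ := (isDivisor_E4 h4).dvd k hH.toFormOne hHt
  have := hb ptRho
  rw [E4_ptRho, zero_mul] at this
  exact this

/-- a level one form vanishing at a zero of `E₆` vanishes at `i` -/
theorem zero_at_I {H : ℍ → ℂ} (hH : IsMF 1 k H) (t : ℍ) (h6 : E₆ t = 0) (hHt : H t = 0) :
    H UpperHalfPlane.I = 0 := by
  obtain ⟨b, hb⟩ := (isDivisor_E6 h6).dvd k hH.toFormOne hHt
  have := hb UpperHalfPlane.I
  rw [E6_I, zero_mul] at this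
  exact this

/-- division at `∞` (easy: `Δ` has no zeros, `e^{-2πy} = O(Δ)`) -/
theorem div_delta (hf : IsMF N k f)
    (h0 : ∀ q : Q N, IsBoundedAtImInfty (fun τ => cj k f q τ / Δ τ)) :
    ∃ g : ℍ → ℂ, IsMF N (k - 12) g ∧ f = Δ * g := by
  have hsl : ∀ γ : SL(2, ℤ), (f / Δ) ∣[k - 12] γ = (f ∣[k] γ) / Δ := by
    intro γ
    rw [div_slash_SL2, isCF_delta.inv_one γ]
  refine ⟨f / Δ, ⟨hf.hol.div isCF_delta.hol discriminant_ne_zero, fun γ hγ => ?_, fun σ => ?_⟩, ?_⟩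
  · rw [hsl, hf.inv γ hγ]
  · rw [hsl]
    have := h0 (QuotientGroup.mk σ⁻¹ : Q N)
    rw [cj_mk hf.inv, inv_inv] at this
    exact this
  · funext z
    simp only [Pi.mul_apply, Pi.div_apply]
    rw [mul_div_cancel₀ _ (discriminant_ne_zero z)]

end Fermat.Agent.S20
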