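import Mathlib

/-!
# Linear algebra for the behaviour at infinity

`ρ` is an action of `ZMod n` on the finite set `X`.  We construct the isotypic projectors `infPi ρ r`
of the permutation representation and the matrices `infC ρ x = ∑ r, x ^ r • infPi ρ r`, and compute
`det (infC ρ x) ^ 2 = (x ^ n) ^ (#X - #orbits)`.
-/

set_option autoImplicit false

open Matrix Finset

namespace Fermat.Agent.S20

section InfAlg

variable {X : Type*} [Fintype X] [DecidableEq X] {n : ℕ} [NeZero n]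

/-- The isotypic projector. -/
noncomputable def infPi (ρ : ZMod n → X → X) (r : ZMod n) : Matrix X X ℂ :=
  Matrix.of fun y q => (n : ℂ)⁻¹ *
    ∑ s : ZMod n, ZMod.stdAddChar (-(r * s)) * (if ρ s y = q then 1 else 0)

theorem infPi_apply (ρ : ZMod n → X → X) (r : ZMod n) (y q : X) :
    infPi ρ r y q = (n : ℂ)⁻¹ *
      ∑ s : ZMod n, ZMod.stdAddChar (-(r * s)) * (if ρ s y = q then 1 else 0) := rfl

theorem inf_sum_char (b : ZMod n) :
    ∑ s : ZMod n, (ZMod.stdAddChar (s * b) : ℂ) = if b = 0 then (n : ℂ) else 0 := by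
  rw [AddChar.sum_mulShift b (ZMod.isPrimitive_stdAddChar n), ZMod.card]
  split_ifs <;> simp

variable {ρ : ZMod n → X → X}

theorem infPi_shift (hadd : ∀ s t x, ρ (s + t) x = ρ s (ρ t x)) (r t : ZMod n) (y q : X) :
    infPi ρ r (ρ t y) q = ZMod.stdAddChar (r * t) * infPi ρ r y q := by
  rw [infPi_apply, infPi_apply, mul_left_comm]
  congr 1
  rw [Finset.mul_sum]
  refine Fintype.sum_equiv (Equiv.addRight t) _ _ fun s => ?_
  simp only [Equiv.coe_addRight, hadd]
  rw [← mul_assoc, ← AddChar.map_add_eq_mul]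
  congr 2
  ring

theorem infPi_mul (hadd : ∀ s t x, ρ (s + t) x = ρ s (ρ t x)) (r' r : ZMod n) :
    infPi ρ r' * infPi ρ r = if r' = r then infPi ρ r else 0 := by
  ext y q
  have h1 : (infPi ρ r' * infPi ρ r) y q =
      (n : ℂ)⁻¹ * ∑ s : ZMod n, ZMod.stdAddChar (-(r' * s)) * infPi ρ r (ρ s y) q := by
    rw [Matrix.mul_apply]
    simp only [infPi_apply ρ r', mul_assoc, Finset.sum_mul, ← Finset.mul_sum]
    congr 1
    rw [Finset.sum_comm]
    refine Finset.sum_congr rfl fun s _ => ?_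
    rw [← Finset.mul_sum]
    congr 1
    simp
  rw [h1]
  simp only [infPi_shift hadd, ← mul_assoc, ← AddChar.map_add_eq_mul]
  rw [← Finset.sum_mul]
  have h2 : ∀ s : ZMod n, -(r' * s) + r * s = s * (r - r') := fun s => by ring
  simp only [h2]
  rw [inf_sum_char]
  have hn : (n : ℂ) ≠ 0 := Nat.cast_ne_zero.mpr (NeZero.ne n)
  by_cases h : r' = r
  · subst h
    simp [hn]
  · have : r - r' ≠ 0 := sub_ne_zero.mpr (Ne.symm h)
    simp [h, this]

theorem infPi_sum (hzero : ∀ x, ρ 0 x = x) : ∑ r : ZMod n, infPi ρ r = 1 := by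
  ext y q
  rw [Matrix.sum_apply]
  simp only [infPi_apply, ← Finset.mul_sum]
  rw [Finset.sum_comm]
  simp only [← Finset.sum_mul]
  have h2 : ∀ r s : ZMod n, -(r * s) = r * (-s) := fun r s => by ring
  simp only [h2, inf_sum_char, neg_eq_zero]
  have hn : (n : ℂ) ≠ 0 := Nat.cast_ne_zero.mpr (NeZero.ne n)
  rw [Finset.sum_eq_single 0 (fun s _ hs => by simp [hs]) (fun h => absurd (Finset.mem_univ _) h)]
  simp [hzero, Matrix.one_apply, hn]

theorem infPi_transpose (hadd : ∀ s t x, ρ (s + t) x = ρ s (ρ t x)) (hzero : ∀ x, ρ 0 x = x)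
    (r : ZMod n) : (infPi ρ r)ᵀ = infPi ρ (-r) := by
  ext y q
  rw [Matrix.transpose_apply, infPi_apply, infPi_apply]
  congr 1
  refine Fintype.sum_equiv (Equiv.neg _) _ _ fun s => ?_
  simp only [Equiv.neg_apply]
  have h1 : ρ s q = y ↔ ρ (-s) y = q := by
    constructor
    · rintro rfl
      rw [← hadd, neg_add_cancel, hzero]
    · rintro rfl
      rw [← hadd, add_neg_cancel, hzero]
  simp only [h1]
  congr 2
  ring

/-- The matrix `∑ r, x ^ r • Π_r`. -/
noncomputable def infC (ρ : ZMod n → X → X) (x : ℂ) : Matrix X X ℂ :=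
  ∑ r : ZMod n, x ^ r.val • infPi ρ r

theorem infC_apply (ρ : ZMod n → X → X) (x : ℂ) (y q : X) :
    infC ρ x y q = ∑ r : ZMod n, x ^ r.val * infPi ρ r y q := by
  simp [infC, Matrix.sum_apply]

theorem infC_one (hzero : ∀ x, ρ 0 x = x) : infC ρ 1 = 1 := by
  simp [infC, infPi_sum hzero]

theorem infC_mul (hadd : ∀ s t x, ρ (s + t) x = ρ s (ρ t x)) (x y : ℂ) :
    infC ρ x * infC ρ y = infC ρ (x * y) := by
  simp only [infC, Finset.sum_mul, Finset.mul_sum, smul_mul_smul_comm, infPi_mul hadd]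
  refine Finset.sum_congr rfl fun r _ => ?_
  simp [mul_pow]

theorem infC_shift (hadd : ∀ s t x, ρ (s + t) x = ρ s (ρ t x)) (x : ℂ) (y q : X) :
    infC ρ x (ρ 1 y) q = infC ρ (ZMod.stdAddChar (1 : ZMod n) * x) y q := by
  rw [infC_apply, infC_apply]
  refine Finset.sum_congr rfl fun r _ => ?_
  rw [infPi_shift hadd, mul_one, mul_pow, ← AddChar.map_nsmul_eq_pow]
  simp only [nsmul_eq_mul, mul_one, ZMod.natCast_val, ZMod.cast_id', id_eq]
  ring

theorem infC_mul_transpose (hadd : ∀ s t x, ρ (s + t) x = ρ s (ρ t x)) (hzero : ∀ x, ρ 0 x = x)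
    (x : ℂ) : infC ρ x * (infC ρ x)ᵀ = x ^ n • (1 : Matrix X X ℂ) + (1 - x ^ n) • infPi ρ 0 := by
  have h1 : (infC ρ x)ᵀ = ∑ r : ZMod n, x ^ (-r).val • infPi ρ r := by
    simp only [infC, Matrix.transpose_sum, Matrix.transpose_smul, infPi_transpose hadd hzero]
    refine Fintype.sum_equiv (Equiv.neg _) _ _ fun s => ?_
    simp
  rw [h1]
  simp only [infC, Finset.sum_mul, Finset.mul_sum, smul_mul_smul_comm, infPi_mul hadd]
  rw [← infPi_sum hzero, Finset.smul_sum]
  have h2 : (1 - x ^ n) • infPi ρ 0 = ∑ r : ZMod n, (if r = 0 then (1 - x ^ n) else 0) • infPi ρ r := by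
    simp [ite_smul]
  rw [h2, ← Finset.sum_add_distrib]
  refine Finset.sum_congr rfl fun r _ => ?_
  rw [← add_smul]
  simp only [smul_ite, smul_zero, Finset.sum_ite_eq', Finset.mem_univ, if_true]
  congr 1
  rw [← pow_add, ZMod.neg_val]
  by_cases hr : r = 0
  · simp [hr]
  · have := ZMod.val_lt r
    simp only [hr, if_false, add_zero]
    congr 1
    omega

theorem infPi_zero_det {Ω : Type*} [Fintype Ω] [DecidableEq Ω] (cls : X → Ω)
    (hadd : ∀ s t x, ρ (s + t) x = ρ s (ρ t x))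
    (h1 : ∀ s x, cls (ρ s x) = cls x) (h2 : ∀ x y, cls x = cls y → ∃ s, ρ s x = y)
    (h3 : Function.Surjective cls) (z : ℂ) :
    (1 + z • infPi ρ 0).det = (1 + z) ^ Fintype.card Ω := by
  set A : Matrix X Ω ℂ := Matrix.of fun x ω => if cls x = ω then 1 else 0 with hA
  set B : Matrix Ω X ℂ := Matrix.of fun ω q => infPi ρ 0 (Function.surjInv h3 ω) q with hB
  have hn : (n : ℂ) ≠ 0 := Nat.cast_ne_zero.mpr (NeZero.ne n)
  have hAB : A * B = infPi ρ 0 := by
    ext y q
    rw [Matrix.mul_apply]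
    simp only [hA, hB, Matrix.of_apply, ite_mul, one_mul, zero_mul, Finset.sum_ite_eq,
      Finset.mem_univ, if_true]
    obtain ⟨s, hs⟩ := h2 y (Function.surjInv h3 (cls y)) (Function.surjInv_eq h3 _).symm
    rw [← hs, infPi_shift hadd]
    simp
  have hBA : B * A = 1 := by
    ext ω ω'
    rw [Matrix.mul_apply]
    simp only [hA, hB, Matrix.of_apply, infPi_apply, zero_mul, neg_zero, AddChar.map_zero_eq_one,
      one_mul, mul_assoc, ← Finset.mul_sum, Finset.sum_mul]
    rw [Finset.sum_comm]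
    simp only [ite_mul, one_mul, zero_mul, Finset.sum_ite_eq, Finset.mem_univ, if_true, h1,
      Function.surjInv_eq h3, Finset.sum_const, Finset.card_univ, ZMod.card, Matrix.one_apply]
    split_ifs <;> simp [hn]
  rw [← hAB, ← Matrix.smul_mul, Matrix.det_one_add_mul_comm, Matrix.mul_smul, hBA]
  have : (1 : Matrix Ω Ω ℂ) + z • 1 = (1 + z) • 1 := by rw [add_smul, one_smul]
  rw [this, Matrix.det_smul, Matrix.det_one, mul_one]

theorem infC_det_sq {Ω : Type*} [Fintype Ω] [DecidableEq Ω] (cls : X → Ω)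
    (hadd : ∀ s t x, ρ (s + t) x = ρ s (ρ t x)) (hzero : ∀ x, ρ 0 x = x)
    (h1 : ∀ s x, cls (ρ s x) = cls x) (h2 : ∀ x y, cls x = cls y → ∃ s, ρ s x = y)
    (h3 : Function.Surjective cls) {x : ℂ} (hx : x ≠ 0) :
    (infC ρ x).det ^ 2 = (x ^ n) ^ (Fintype.card X - Fintype.card Ω) := by
  have hle : Fintype.card Ω ≤ Fintype.card X := Fintype.card_le_of_surjective cls h3
  have ht : x ^ n ≠ 0 := pow_ne_zero _ hx
  set t := x ^ n with htdef
  have e1 : (infC ρ x).det ^ 2 = (infC ρ x * (infC ρ x)ᵀ).det := by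
    rw [Matrix.det_mul, Matrix.det_transpose, sq]
  have e2 : t • (1 : Matrix X X ℂ) + (1 - t) • infPi ρ 0 = t • (1 + ((1 - t) / t) • infPi ρ 0) := by
    rw [smul_add, smul_smul, mul_div_cancel₀ _ ht]
  rw [e1, infC_mul_transpose hadd hzero, ← htdef, e2, Matrix.det_smul,
    infPi_zero_det cls hadd h1 h2 h3]
  have e3 : 1 + (1 - t) / t = t⁻¹ := by field_simp; ring
  rw [e3, inv_pow, ← div_eq_mul_inv, pow_sub₀ _ ht hle, div_eq_mul_inv]

end InfAlg

end Fermat.Agent.S20
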