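import Mathlib
import Fermat.Agent.S20.Basic
import Fermat.Agent.S20.InfAlg

/-!
# Behaviour at `i∞` of determinants of `T`-equivariant families (module INF of the S20 project)
-/

set_option autoImplicit false

open UpperHalfPlane hiding I
open Function Complex Filter
open scoped Manifold Real MatrixGroups ModularForm Topology
open CongruenceSubgroup Matrix.SpecialLinearGroup ModularForm

namespace Fermat.Agent.S20

local notation "Δ" => ModularForm.discriminant
local notation "𝕢" => Function.Periodic.qParam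

variable {N : ℕ} [NeZero N]

/-- number of cusps = number of `T`-orbits on the cosets -/
noncomputable def nCusps (N : ℕ) : ℕ :=
  Nat.card (MulAction.orbitRel.Quotient (Subgroup.zpowers ModularGroup.T) (Q N))

/-- A family of functions indexed by the cosets which is holomorphic, bounded at `i∞`
and `T`-equivariant. -/
structure TFam (φ : Q N → ℍ → ℂ) : Prop where
  hol : ∀ q, MDiff (φ q)
  bdd : ∀ q, IsBoundedAtImInfty (φ q)
  equiv : ∀ q τ, φ q (ModularGroup.T • τ) = φ (ModularGroup.T⁻¹ • q) τ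

/-! ### General analytic lemmas -/

theorem inf_periodic {u : ℍ → ℂ} (per : ∀ τ, u (ModularGroup.T • τ) = u τ) :
    Function.Periodic (u ∘ ofComplex) (1 : ℝ) := by
  intro w
  by_cases! hw : 0 < im w
  · have h1 : 0 < im (w + (1 : ℝ)) := by simp [hw]
    simp only [Function.comp_apply, ofComplex_apply_of_im_pos h1, ofComplex_apply_of_im_pos hw]
    rw [← per ⟨w, hw⟩]
    congr 1
    ext
    rw [modular_T_smul, coe_vadd]
    simp [add_comm]
  · have h1 : im (w + (1 : ℝ)) ≤ 0 := by simpa using hw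
    simp only [Function.comp_apply]
    rw [ofComplex_apply_of_im_nonpos h1, ofComplex_apply_of_im_nonpos hw]

theorem inf_tendsto_of_bdd {u : ℍ → ℂ} (hol : MDiff u)
    (per : ∀ τ, u (ModularGroup.T • τ) = u τ) (bdd : IsBoundedAtImInfty u) :
    Tendsto u atImInfty (𝓝 (cuspFunction 1 u 0)) := by
  have han := analyticAt_cuspFunction_zero one_pos (inf_periodic per) hol bdd
  have h1 := han.continuousAt.tendsto.comp (qParam_tendsto_atImInfty one_pos)
  exact h1.congr (fun τ => eq_cuspFunction τ one_ne_zero (inf_periodic per))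

theorem inf_decay {u : ℍ → ℂ} (hol : MDiff u)
    (per : ∀ τ, u (ModularGroup.T • τ) = u τ) (h0 : IsZeroAtImInfty u) :
    u =O[atImInfty] fun τ => Real.exp (-2 * π * τ.im) := by
  simpa using h0.exp_decay_atImInfty one_pos (inf_periodic per) hol h0.isBoundedAtImInfty

theorem inf_mdiff_of_differentiable {g : ℂ → ℂ} (hg : Differentiable ℂ g) :
    MDiff (fun τ : ℍ => g τ) := by
  rw [UpperHalfPlane.mdifferentiable_iff]
  refine hg.differentiableOn.congr fun z hz => ?_
  simp [ofComplex_apply_of_im_pos hz]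

theorem inf_mdiff_sum {ι : Type*} (S : Finset ι) (Φ : ι → ℍ → ℂ) (h : ∀ i ∈ S, MDiff (Φ i)) :
    MDiff (fun τ => ∑ i ∈ S, Φ i τ) := by
  have e : (fun τ => ∑ i ∈ S, Φ i τ) = ∑ i ∈ S, Φ i := by
    ext τ
    simp
  rw [e]
  exact Finset.sum_induction _ (fun φ : ℍ → ℂ => MDiff φ) (fun _ _ h1 h2 => h1.add h2)
    mdifferentiable_const h

theorem inf_qParam_T (h : ℝ) (τ : ℍ) :
    𝕢 h ((ModularGroup.T • τ : ℍ) : ℂ) = cexp (2 * π * I / h) * 𝕢 h τ := by
  rw [modular_T_smul, coe_vadd, Function.Periodic.qParam, Function.Periodic.qParam, ← Complex.exp_add]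
  congr 1
  push_cast
  ring

theorem inf_bdd_of_q_mul {u : ℍ → ℂ} (hol : MDiff u)
    (per : ∀ τ, u (ModularGroup.T • τ) = u τ) (h0 : IsZeroAtImInfty (fun τ => 𝕢 1 τ * u τ)) :
    IsBoundedAtImInfty u := by
  have hq : MDiff (fun τ : ℍ => 𝕢 1 τ) := by
    apply inf_mdiff_of_differentiable (g := 𝕢 1)
    unfold Function.Periodic.qParam
    fun_prop
  have h1 := inf_decay (hq.mul hol) (fun τ => by
    simp only [Pi.mul_apply]
    rw [per, inf_qParam_T]
    simp [Complex.exp_two_pi_mul_I]) h0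
  obtain ⟨C, hC⟩ := h1.bound
  refine Asymptotics.IsBigO.of_bound C ?_
  filter_upwards [hC] with τ hτ
  have h2 : ‖𝕢 1 (τ : ℂ)‖ = Real.exp (-2 * π * τ.im) := by
    rw [Function.Periodic.norm_qParam]
    simp
  simp only [Pi.mul_apply, norm_mul, Real.norm_eq_abs, ← h2, abs_norm] at hτ
  have h3 : 0 < ‖𝕢 1 (τ : ℂ)‖ := norm_pos_iff.mpr (Function.Periodic.qParam_ne_zero _)
  simp only [Pi.one_apply, norm_one, mul_one]
  rw [mul_comm] at hτ
  exact le_of_mul_le_mul_right hτ h3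

theorem inf_q_div_delta : Tendsto (fun τ : ℍ => 𝕢 1 τ / Δ τ) atImInfty (𝓝 1) := by
  have h := (tendsto_atImInfty_tprod_one_sub_eta_q_pow).inv₀ one_ne_zero
  rw [inv_one] at h
  refine h.congr fun τ => ?_
  rw [discriminant_eq_q_prod, div_mul_cancel_left₀ (Function.Periodic.qParam_ne_zero _)]

theorem inf_div_delta_bdd {u : ℍ → ℂ} (hol : MDiff u)
    (per : ∀ τ, u (ModularGroup.T • τ) = u τ) (h0 : IsZeroAtImInfty u) :
    IsBoundedAtImInfty (fun τ => u τ / Δ τ) :=
  (Asymptotics.div_isBoundedUnder_of_isBigO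
    ((inf_decay hol per h0).trans exp_isBigO_discriminant)).isBigO_one ℝ

/-! ### The action of `ZMod N` on the cosets -/

/-- the permutation of the cosets induced by `T` -/
noncomputable def infSig (N : ℕ) : Equiv.Perm (Q N) :=
  MulAction.toPermHom SL(2, ℤ) (Q N) ModularGroup.T

theorem infSig_zpow_apply (k : ℤ) (x : Q N) : (infSig N ^ k) x = ModularGroup.T ^ k • x := by
  rw [infSig, ← map_zpow]
  rfl

theorem infSig_pow_apply (k : ℕ) (x : Q N) : (infSig N ^ k) x = ModularGroup.T ^ k • x := by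
  rw [infSig, ← map_pow]
  rfl

theorem inf_T_pow_N (x : Q N) : ModularGroup.T ^ N • x = x := by
  induction x using QuotientGroup.induction_on with
  | H g =>
    rw [MulAction.Quotient.smul_coe, QuotientGroup.eq, smul_eq_mul, mul_inv_rev]
    have h1 : ModularGroup.T ^ N ∈ CongruenceSubgroup.Gamma N := by
      have := ModularGroup_T_pow_mem_Gamma N N dvd_rfl
      simpa using this
    have h2 := (Gamma_normal N).conj_mem _ (inv_mem h1) g⁻¹
    rw [inv_inv] at h2
    rw [Gamma_mem] at h2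
    rw [Gamma0_mem]
    exact h2.2.2.1

theorem infSig_pow_N : infSig N ^ N = 1 := by
  ext x
  rw [infSig_pow_apply, inf_T_pow_N]
  rfl

/-- the action of `ZMod N` on the cosets -/
noncomputable def infRho (s : ZMod N) (x : Q N) : Q N := (infSig N ^ s.val) x

theorem infRho_add (s t : ZMod N) (x : Q N) : infRho (s + t) x = infRho s (infRho t x) := by
  unfold infRho
  rw [ZMod.val_add, ← pow_eq_pow_mod _ infSig_pow_N, pow_add, Equiv.Perm.mul_apply]

theorem infRho_zero (x : Q N) : infRho 0 x = x := by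
  simp [infRho]

theorem infRho_one (x : Q N) : infRho 1 x = ModularGroup.T • x := by
  unfold infRho
  rw [ZMod.val_one_eq_one_mod, ← pow_eq_pow_mod _ infSig_pow_N, infSig_pow_apply, pow_one]

/-- the set of cusps -/
abbrev InfOm (N : ℕ) := MulAction.orbitRel.Quotient (Subgroup.zpowers ModularGroup.T) (Q N)

noncomputable instance : Fintype (InfOm N) := Fintype.ofFinite _

noncomputable instance : DecidableEq (InfOm N) := Classical.decEq _

/-- the class of a coset -/
def infCls (x : Q N) : InfOm N := Quotient.mk _ x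

theorem infCls_rho (s : ZMod N) (x : Q N) : infCls (infRho s x) = infCls x := by
  apply Quotient.sound
  change _ ∈ MulAction.orbit _ _
  unfold infRho
  rw [infSig_pow_apply]
  exact ⟨⟨ModularGroup.T ^ s.val, Subgroup.pow_mem _ (Subgroup.mem_zpowers _) _⟩, rfl⟩

theorem infCls_eq (x y : Q N) (h : infCls x = infCls y) : ∃ s, infRho s x = y := by
  have h1 : x ∈ MulAction.orbit (Subgroup.zpowers ModularGroup.T) y := Quotient.exact h
  obtain ⟨⟨g, hg⟩, hgx⟩ := h1
  obtain ⟨k, rfl⟩ := Subgroup.mem_zpowers_iff.mp hg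
  have hgx' : ModularGroup.T ^ k • y = x := hgx
  refine ⟨((-k : ℤ) : ZMod N), ?_⟩
  unfold infRho
  rw [← zpow_natCast, ZMod.val_intCast, ← zpow_eq_zpow_emod' _ infSig_pow_N, infSig_zpow_apply,
    ← hgx', smul_smul, ← zpow_add]
  simp

theorem infCls_surj : Function.Surjective (infCls (N := N)) := Quotient.mk_surjective

theorem nCusps_eq : nCusps N = Fintype.card (InfOm N) := Nat.card_eq_fintype_card

theorem nCusps_le : nCusps N ≤ Fintype.card (Q N) := by
  rw [nCusps_eq]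
  exact Fintype.card_le_of_surjective _ infCls_surj

theorem inf_det_sq {x : ℂ} (hx : x ≠ 0) :
    (infC (infRho (N := N)) x).det ^ 2 = (x ^ N) ^ (Fintype.card (Q N) - nCusps N) := by
  rw [nCusps_eq]
  exact infC_det_sq infCls infRho_add infRho_zero infCls_rho infCls_eq infCls_surj hx

/-! ### The regularised matrix `U` -/

theorem inf_stdAddChar_one : (ZMod.stdAddChar (1 : ZMod N) : ℂ) = cexp (2 * π * I / (N : ℝ)) := by
  have := ZMod.stdAddChar_coe (N := N) 1
  simpa using this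

theorem inf_qN_pow (τ : ℍ) : (𝕢 N τ) ^ N = 𝕢 1 τ := by
  have hN : (N : ℂ) ≠ 0 := Nat.cast_ne_zero.mpr (NeZero.ne N)
  rw [Function.Periodic.qParam, Function.Periodic.qParam, ← Complex.exp_nat_mul]
  congr 1
  push_cast
  field_simp

/-- `U(τ) = M(τ) C(τ)` -/
noncomputable def infU (M : Q N → Q N → ℍ → ℂ) (τ : ℍ) : Matrix (Q N) (Q N) ℂ :=
  (Matrix.of fun j q => M j q τ) * infC infRho (𝕢 N τ)⁻¹

theorem infU_mul (M : Q N → Q N → ℍ → ℂ) (τ : ℍ) :
    infU M τ * infC infRho (𝕢 N τ) = Matrix.of fun j q => M j q τ := by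
  rw [infU, Matrix.mul_assoc, infC_mul infRho_add,
    inv_mul_cancel₀ (Function.Periodic.qParam_ne_zero _), infC_one infRho_zero, Matrix.mul_one]

theorem infU_apply (M : Q N → Q N → ℍ → ℂ) (τ : ℍ) (j q : Q N) :
    infU M τ j q = ∑ y, M j y τ * infC infRho (𝕢 N τ)⁻¹ y q := by
  rw [infU, Matrix.mul_apply]
  rfl

theorem infU_T (M : Q N → Q N → ℍ → ℂ) (hM : ∀ j, TFam (M j)) (τ : ℍ) :
    infU M (ModularGroup.T • τ) = infU M τ := by
  ext j q
  rw [infU_apply, infU_apply]
  refine (Fintype.sum_equiv (MulAction.toPerm ModularGroup.T) _ _ fun y => ?_).symm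
  rw [MulAction.toPerm_apply, (hM j).equiv, inv_smul_smul, ← infRho_one, infC_shift infRho_add,
    inf_qParam_T, inf_stdAddChar_one, mul_inv, mul_inv_cancel_left₀ (Complex.exp_ne_zero _)]

theorem inf_mdiff_qN_inv_pow (k : ℕ) : MDiff (fun τ : ℍ => ((𝕢 N τ)⁻¹) ^ k) := by
  apply inf_mdiff_of_differentiable (g := fun z => ((𝕢 N z)⁻¹) ^ k)
  have : (fun z : ℂ => ((𝕢 N z)⁻¹) ^ k) = fun z => (cexp (-(2 * π * I * z / (N : ℝ)))) ^ k := by
    ext z
    rw [Function.Periodic.qParam, Complex.exp_neg]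
  rw [this]
  fun_prop

theorem infU_mdiff (M : Q N → Q N → ℍ → ℂ) (hM : ∀ j, TFam (M j)) (j q : Q N) :
    MDiff (fun τ => infU M τ j q) := by
  simp only [infU_apply, infC_apply]
  refine inf_mdiff_sum _ _ fun y _ => ((hM j).hol y).mul ?_
  exact inf_mdiff_sum _ _ fun r _ => (inf_mdiff_qN_inv_pow r.val).mul mdifferentiable_const

theorem inf_zero_sum {ι : Type*} (S : Finset ι) (Φ : ι → ℍ → ℂ)
    (h : ∀ i ∈ S, IsZeroAtImInfty (Φ i)) : IsZeroAtImInfty (fun τ => ∑ i ∈ S, Φ i τ) := by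
  have h1 : Tendsto (fun τ => ∑ i ∈ S, Φ i τ) atImInfty (𝓝 (∑ i ∈ S, (0 : ℂ))) :=
    tendsto_finsetSum _ h
  rw [Finset.sum_const_zero] at h1
  exact h1

theorem inf_bdd_sum {ι : Type*} (S : Finset ι) (Φ : ι → ℍ → ℂ)
    (h : ∀ i ∈ S, IsBoundedAtImInfty (Φ i)) : IsBoundedAtImInfty (fun τ => ∑ i ∈ S, Φ i τ) := by
  have e : (fun τ => ∑ i ∈ S, Φ i τ) = ∑ i ∈ S, Φ i := by
    ext τ
    simp
  rw [e]
  exact Asymptotics.IsBigO.sum h

theorem inf_qN_pow_zero {k : ℕ} (hk : k ≠ 0) : IsZeroAtImInfty (fun τ : ℍ => (𝕢 N τ) ^ k) := by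
  have hN : (0 : ℝ) < N := Nat.cast_pos.mpr (NeZero.pos N)
  have := (qParam_tendsto_atImInfty hN).pow k
  rwa [zero_pow hk] at this

theorem inf_qN_pow_bdd (k : ℕ) : IsBoundedAtImInfty (fun τ : ℍ => (𝕢 N τ) ^ k) := by
  have hN : (0 : ℝ) < N := Nat.cast_pos.mpr (NeZero.pos N)
  exact ((qParam_tendsto_atImInfty hN).pow k).isBigO_one ℝ

theorem infU_q_mul_zero (M : Q N → Q N → ℍ → ℂ) (hM : ∀ j, TFam (M j)) (j q : Q N) :
    IsZeroAtImInfty (fun τ => 𝕢 1 τ * infU M τ j q) := by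
  have e : (fun τ : ℍ => 𝕢 1 τ * infU M τ j q) = fun τ => ∑ y, ∑ r : ZMod N,
      ((fun τ : ℍ => (𝕢 N τ) ^ (N - r.val)) * (fun τ => M j y τ * infPi infRho r y q)) τ := by
    ext τ
    rw [infU_apply, Finset.mul_sum]
    refine Finset.sum_congr rfl fun y _ => ?_
    rw [infC_apply, Finset.mul_sum, Finset.mul_sum]
    refine Finset.sum_congr rfl fun r _ => ?_
    have hr := ZMod.val_lt r
    have h1 : 𝕢 1 (τ : ℂ) = (𝕢 N τ) ^ (N - r.val) * (𝕢 N τ) ^ r.val := by
      rw [← pow_add, Nat.sub_add_cancel hr.le, inf_qN_pow]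
    have h2 := Function.Periodic.qParam_ne_zero (h := N) (τ : ℂ)
    simp only [Pi.mul_apply]
    rw [h1, inv_pow]
    field_simp
  rw [e]
  refine inf_zero_sum _ _ fun y _ => inf_zero_sum _ _ fun r _ => ?_
  have hr := ZMod.val_lt r
  refine (inf_qN_pow_zero (by omega)).mul_boundedAtFilter ?_
  exact ((hM j).bdd y).mul (Filter.const_boundedAtFilter _ _)

/-- the limit of `U` -/
noncomputable def infUlim (M : Q N → Q N → ℍ → ℂ) : Matrix (Q N) (Q N) ℂ :=
  Matrix.of fun j q => cuspFunction 1 (fun τ => infU M τ j q) 0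

theorem infU_tendsto (M : Q N → Q N → ℍ → ℂ) (hM : ∀ j, TFam (M j)) :
    Tendsto (infU M) atImInfty (𝓝 (infUlim M)) := by
  refine tendsto_pi_nhds.mpr fun j => tendsto_pi_nhds.mpr fun q => ?_
  have per : ∀ τ, infU M (ModularGroup.T • τ) j q = infU M τ j q := fun τ => by rw [infU_T M hM]
  exact inf_tendsto_of_bdd (infU_mdiff M hM j q) per
    (inf_bdd_of_q_mul (infU_mdiff M hM j q) per (infU_q_mul_zero M hM j q))

theorem inf_det_eq (M : Q N → Q N → ℍ → ℂ) (τ : ℍ) :
    (Matrix.of fun j q => M j q τ).det ^ 2 / Δ τ ^ (Fintype.card (Q N) - nCusps N) =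
      (infU M τ).det ^ 2 * (𝕢 1 τ / Δ τ) ^ (Fintype.card (Q N) - nCusps N) := by
  rw [← infU_mul M τ, Matrix.det_mul, mul_pow, inf_det_sq (Function.Periodic.qParam_ne_zero _),
    inf_qN_pow, div_pow, mul_div_assoc]

theorem inf_key (M : Q N → Q N → ℍ → ℂ) (hM : ∀ j, TFam (M j)) :
    Tendsto (fun τ => (Matrix.of fun j q => M j q τ).det ^ 2 /
      Δ τ ^ (Fintype.card (Q N) - nCusps N)) atImInfty (𝓝 ((infUlim M).det ^ 2)) := by
  simp only [inf_det_eq]
  have h1 : Tendsto (fun τ => (infU M τ).det) atImInfty (𝓝 (infUlim M).det) :=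
    ((Continuous.matrix_det continuous_id).tendsto _).comp (infU_tendsto M hM)
  have h2 := (h1.pow 2).mul (inf_q_div_delta.pow (Fintype.card (Q N) - nCusps N))
  simpa using h2

/-- (Inf1) -/
theorem inf_bdd (M : Q N → Q N → ℍ → ℂ) (hM : ∀ j, TFam (M j)) :
    IsBoundedAtImInfty
      (fun τ => (Matrix.of fun j q => M j q τ).det ^ 2 / Δ τ ^ (Fintype.card (Q N) - nCusps N)) :=
  (inf_key M hM).isBigO_one ℝ

theorem infC_bdd (x q : Q N) : IsBoundedAtImInfty (fun τ : ℍ => infC infRho (𝕢 N τ) x q) := by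
  simp only [infC_apply]
  exact inf_bdd_sum _ _ fun r _ => (inf_qN_pow_bdd r.val).mul (Filter.const_boundedAtFilter _ _)

/-- (Inf2) -/
theorem inf_kernel (M : Q N → Q N → ℍ → ℂ) (hM : ∀ j, TFam (M j))
    (h0 : IsZeroAtImInfty
      (fun τ => (Matrix.of fun j q => M j q τ).det ^ 2 / Δ τ ^ (Fintype.card (Q N) - nCusps N))) :
    ∃ c : Q N → ℂ, c ≠ 0 ∧ ∀ A : Q N → ℍ → ℂ,
      (∀ j, MDiff (A j)) → (∀ j τ, A j (ModularGroup.T • τ) = A j τ) →
      (∀ j, Tendsto (A j) atImInfty (𝓝 1)) →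
      ∀ q, IsBoundedAtImInfty (fun τ => (∑ j, c j * A j τ * M j q τ) / Δ τ) := by
  have hdet : (infUlim M).det = 0 := by
    have := tendsto_nhds_unique (inf_key M hM) h0
    exact (pow_eq_zero_iff two_ne_zero).mp this
  obtain ⟨c, hc, hcU⟩ := Matrix.exists_vecMul_eq_zero_iff.mpr hdet
  refine ⟨c, hc, fun A hA1 hA2 hA3 q => ?_⟩
  set w : Q N → ℍ → ℂ := fun x τ => ∑ j, c j * A j τ * infU M τ j x with hw
  have hw1 : ∀ x, MDiff (w x) := fun x =>
    inf_mdiff_sum _ _ fun j _ => (mdifferentiable_const.mul (hA1 j)).mul (infU_mdiff M hM j x)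
  have hw2 : ∀ x τ, w x (ModularGroup.T • τ) = w x τ := fun x τ => by
    simp only [hw, hA2, infU_T M hM]
  have hw3 : ∀ x, IsZeroAtImInfty (w x) := fun x => by
    have h1 : Tendsto (w x) atImInfty (𝓝 (∑ j, c j * 1 * infUlim M j x)) :=
      tendsto_finsetSum _ fun j _ => (tendsto_const_nhds.mul (hA3 j)).mul
        (tendsto_pi_nhds.mp (tendsto_pi_nhds.mp (infU_tendsto M hM) j) x)
    have h2 : ∑ j, c j * 1 * infUlim M j x = 0 := by
      have := congrFun hcU x
      simpa [Matrix.vecMul, dotProduct] using this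
    rw [h2] at h1
    exact h1
  have e : (fun τ => (∑ j, c j * A j τ * M j q τ) / Δ τ) =
      fun τ => ∑ x, ((fun τ => w x τ / Δ τ) * fun τ : ℍ => infC infRho (𝕢 N τ) x q) τ := by
    ext τ
    have h1 : ∀ j, M j q τ = ∑ x, infU M τ j x * infC infRho (𝕢 N τ) x q := fun j => by
      have := congrFun (congrFun (infU_mul M τ) j) q
      rw [Matrix.mul_apply] at this
      exact this.symm
    simp only [h1, hw, Pi.mul_apply, Finset.mul_sum, Finset.sum_div, Finset.sum_mul]
    rw [Finset.sum_comm]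
    refine Finset.sum_congr rfl fun x _ => Finset.sum_congr rfl fun j _ => ?_
    ring
  rw [e]
  exact inf_bdd_sum _ _ fun x _ => (inf_div_delta_bdd (hw1 x) (hw2 x) (hw3 x)).mul (infC_bdd x q)

theorem inf_delta_mul_zero (r : ZMod N) :
    IsZeroAtImInfty (fun τ : ℍ => Δ τ * ((𝕢 N τ)⁻¹) ^ r.val) := by
  have hr := ZMod.val_lt r
  have h1 := (inf_q_div_delta.inv₀ one_ne_zero).mul (inf_qN_pow_zero (N := N) (k := N - r.val)
    (by omega))
  rw [mul_zero] at h1
  refine h1.congr fun τ => ?_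
  have h2 := Function.Periodic.qParam_ne_zero (h := N) (τ : ℂ)
  have h3 : 𝕢 1 (τ : ℂ) = (𝕢 N τ) ^ (N - r.val) * (𝕢 N τ) ^ r.val := by
    rw [← pow_add, Nat.sub_add_cancel hr.le, inf_qN_pow]
  rw [h3, inv_pow]
  field_simp

/-- (Inf3) -/
theorem inf_inv (M : Q N → Q N → ℍ → ℂ) (hM : ∀ j, TFam (M j)) (a : ℂ) (ha : a ≠ 0)
    (h : ∀ τ, (Matrix.of fun j q => M j q τ).det ^ 2 =
      a * Δ τ ^ (Fintype.card (Q N) - nCusps N)) (q j : Q N) :
    IsZeroAtImInfty (fun τ => Δ τ * ((Matrix.of fun j q => M j q τ)⁻¹) q j) := by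
  have hdet : (infUlim M).det ≠ 0 := by
    have h1 : Tendsto (fun τ => (Matrix.of fun j q => M j q τ).det ^ 2 /
        Δ τ ^ (Fintype.card (Q N) - nCusps N)) atImInfty (𝓝 a) := by
      refine tendsto_const_nhds.congr fun τ => ?_
      rw [h τ, mul_div_cancel_right₀ _ (pow_ne_zero _ (discriminant_ne_zero τ))]
    have h2 := tendsto_nhds_unique (inf_key M hM) h1
    intro h3
    rw [h3] at h2
    exact ha (by simpa using h2.symm)
  have hU := infU_tendsto M hM
  have h1 : Tendsto (fun τ => (infU M τ).det) atImInfty (𝓝 (infUlim M).det) :=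
    ((Continuous.matrix_det continuous_id).tendsto _).comp hU
  have h2 : Tendsto (fun τ => (infU M τ).adjugate) atImInfty (𝓝 (infUlim M).adjugate) :=
    ((Continuous.matrix_adjugate continuous_id).tendsto _).comp hU
  have h3 : ∀ x, IsBoundedAtImInfty (fun τ => ((infU M τ)⁻¹) x j) := fun x => by
    have h4 := (h1.inv₀ hdet).mul (tendsto_pi_nhds.mp (tendsto_pi_nhds.mp h2 x) j)
    refine (h4.congr fun τ => ?_).isBigO_one ℝ
    rw [Matrix.inv_def, Ring.inverse_eq_inv', Matrix.smul_apply, smul_eq_mul]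
  have e : (fun τ => Δ τ * ((Matrix.of fun j q => M j q τ)⁻¹) q j) = fun τ => ∑ x, ∑ r : ZMod N,
      ((fun τ : ℍ => Δ τ * ((𝕢 N τ)⁻¹) ^ r.val) *
        (fun τ => infPi infRho r q x * ((infU M τ)⁻¹) x j)) τ := by
    ext τ
    have h5 : (infC (infRho (N := N)) (𝕢 N τ))⁻¹ = infC (infRho (N := N)) (𝕢 N τ)⁻¹ := by
      apply Matrix.inv_eq_left_inv
      rw [infC_mul infRho_add, inv_mul_cancel₀ (Function.Periodic.qParam_ne_zero _),
        infC_one infRho_zero]
    rw [← infU_mul M τ, Matrix.mul_inv_rev, h5, Matrix.mul_apply, Finset.mul_sum]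
    refine Finset.sum_congr rfl fun x _ => ?_
    rw [infC_apply, Finset.sum_mul, Finset.mul_sum]
    refine Finset.sum_congr rfl fun r _ => ?_
    simp only [Pi.mul_apply]
    ring
  rw [e]
  refine inf_zero_sum _ _ fun x _ => inf_zero_sum _ _ fun r _ => ?_
  exact (inf_delta_mul_zero r).mul_boundedAtFilter
    ((Filter.const_boundedAtFilter _ _).mul (h3 x))

end Fermat.Agent.S20
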