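import Mathlib
import Fermat.Agent.S20.Basic
import Fermat.Agent.S20.Infinity

/-!
# Systems of modular forms and their determinants
-/

set_option autoImplicit false
set_option linter.unusedSectionVars false

open UpperHalfPlane hiding I
open Function Complex Filter
open scoped Manifold Real MatrixGroups ModularForm Topology
open CongruenceSubgroup Matrix.SpecialLinearGroup ModularForm

namespace Fermat.Agent.S20

local notation "Δ" => ModularForm.discriminant

/-- A system: as many modular forms as there are cosets. -/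
structure Sys (N : ℕ) where
  k : Q N → ℤ
  F : Q N → ℍ → ℂ
  mf : ∀ j, IsMF N (k j) (F j)

/-- determinants of matrices of holomorphic functions are holomorphic -/
theorem mdiff_det {ι : Type} [Fintype ι] [DecidableEq ι] (M : ι → ι → ℍ → ℂ)
    (hM : ∀ i j, MDiff (M i j)) : MDiff (fun τ => (Matrix.of fun i j => M i j τ).det) := by
  have h : (fun τ => (Matrix.of fun i j => M i j τ).det) =
      ∑ σ : Equiv.Perm ι, ((Equiv.Perm.sign σ : ℤ) : ℂ) • ∏ i, M (σ i) i := by
    funext τ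
    rw [Matrix.det_apply']
    simp [Finset.sum_apply, Finset.prod_apply]
  rw [h]
  exact MDifferentiable.sum fun σ _ => (MDifferentiable.prod fun i _ => hM _ _).const_smul _

theorem bdd_det {ι : Type} [Fintype ι] [DecidableEq ι] (M : ι → ι → ℍ → ℂ)
    (hM : ∀ i j, IsBoundedAtImInfty (M i j)) :
    IsBoundedAtImInfty (fun τ => (Matrix.of fun i j => M i j τ).det) := by
  have h : (fun τ => (Matrix.of fun i j => M i j τ).det) =
      ∑ σ : Equiv.Perm ι, ((Equiv.Perm.sign σ : ℤ) : ℂ) • ∏ i, M (σ i) i := by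
    funext τ
    rw [Matrix.det_apply']
    simp [Finset.sum_apply, Finset.prod_apply]
  rw [h]
  refine Finset.sum_induction _ (fun φ : ℍ → ℂ => IsBoundedAtImInfty φ)
    (fun _ _ h1 h2 => Filter.BoundedAtFilter.add h1 h2)
    (Filter.const_boundedAtFilter _ (0 : ℂ)) fun σ _ => ?_
  exact (Filter.BoundedAtFilter.prod Finset.univ (f := fun i => M (σ i) i)
    fun i _ => hM _ _).const_smul_left _

theorem prod_zpow_eq {ι : Type*} (s : Finset ι) (x : ℂ) (hx : x ≠ 0) (k : ι → ℤ) :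
    ∏ j ∈ s, x ^ k j = x ^ ∑ j ∈ s, k j := by
  classical
  induction s using Finset.induction_on with
  | empty => simp
  | insert a s ha ih => rw [Finset.prod_insert ha, Finset.sum_insert ha, ih, zpow_add₀ hx]

namespace Sys

variable {N : ℕ} [NeZero N] (s : Sys N)

/-- entries of the matrix -/
noncomputable def ent (j q : Q N) : ℍ → ℂ := cj (s.k j) (s.F j) q

/-- the matrix of conjugates -/
noncomputable def mat (τ : ℍ) : Matrix (Q N) (Q N) ℂ := Matrix.of fun j q => s.ent j q τ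

/-- the determinant -/
noncomputable def D (τ : ℍ) : ℂ := (s.mat τ).det

/-- the total weight -/
noncomputable def K : ℤ := ∑ j, s.k j

theorem ent_smul (j q : Q N) (γ : SL(2, ℤ)) (τ : ℍ) :
    s.ent j q (γ • τ) = denom γ τ ^ s.k j * s.ent j (γ⁻¹ • q) τ :=
  cj_smul_apply (s.mf j).inv q γ τ

theorem mat_smul (γ : SL(2, ℤ)) (τ : ℍ) :
    s.mat (γ • τ) = Matrix.diagonal (fun j => denom γ τ ^ s.k j) *
      (s.mat τ).submatrix id (MulAction.toPerm γ⁻¹) := by
  ext j q
  rw [Matrix.diagonal_mul]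
  exact s.ent_smul j q γ τ

theorem D_smul (γ : SL(2, ℤ)) (τ : ℍ) :
    s.D (γ • τ) = denom γ τ ^ s.K *
      (((Equiv.Perm.sign (MulAction.toPerm γ⁻¹ : Equiv.Perm (Q N)) : ℤ) : ℂ) * s.D τ) := by
  unfold D
  rw [mat_smul, Matrix.det_mul, Matrix.det_diagonal, Matrix.det_permute',
    prod_zpow_eq _ _ (denom_ne_zero _ _)]
  rfl

theorem D_sq_smul (γ : SL(2, ℤ)) (τ : ℍ) :
    s.D (γ • τ) ^ 2 = denom γ τ ^ (2 * s.K) * s.D τ ^ 2 := by
  rw [D_smul, mul_pow, mul_pow, two_mul, zpow_add₀ (denom_ne_zero _ _), ← sq]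
  have h : (((Equiv.Perm.sign (MulAction.toPerm γ⁻¹ : Equiv.Perm (Q N)) : ℤ) : ℂ)) ^ 2 = 1 := by
    rcases Int.units_eq_one_or (Equiv.Perm.sign (MulAction.toPerm γ⁻¹ : Equiv.Perm (Q N))) with
      h | h <;> simp [h]
  rw [h, one_mul]

theorem ent_hol (j q : Q N) : MDiff (s.ent j q) := (s.mf j).cj_hol q

theorem ent_bdd (j q : Q N) : IsBoundedAtImInfty (s.ent j q) := (s.mf j).cj_bdd q

theorem D_hol : MDiff s.D := mdiff_det s.ent s.ent_hol

theorem D_bdd : IsBoundedAtImInfty s.D := bdd_det s.ent s.ent_bdd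

theorem denom_T (τ : ℍ) : denom ModularGroup.T τ = 1 := by
  simp [denom, ModularGroup.T]

theorem tfam (j : Q N) : TFam (s.ent j) where
  hol := s.ent_hol j
  bdd := s.ent_bdd j
  equiv q τ := by rw [ent_smul, denom_T, one_zpow, one_mul]

/-- slash invariance from the pointwise transformation law -/
theorem slash_eq_of_smul {k : ℤ} {f : ℍ → ℂ}
    (h : ∀ (γ : SL(2, ℤ)) (τ : ℍ), f (γ • τ) = denom γ τ ^ k * f τ) (γ : SL(2, ℤ)) :
    f ∣[k] γ = f := by
  funext τ
  rw [ModularForm.SL_slash_apply, h, mul_comm, ← mul_assoc, ← zpow_add₀ (denom_ne_zero _ _)]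
  simp

/-- the exponent `μ - c` -/
noncomputable def ex (N : ℕ) [NeZero N] : ℕ := Fintype.card (Q N) - nCusps N

/-- The level one form `D² / Δ^(μ - c)`. -/
noncomputable def H (τ : ℍ) : ℂ := s.D τ ^ 2 / Δ τ ^ ex N

theorem delta_smul (γ : SL(2, ℤ)) (τ : ℍ) : Δ (γ • τ) = denom γ τ ^ (12 : ℤ) * Δ τ := by
  have h := congrFun (isCF_delta.inv_one γ) τ
  rw [ModularForm.SL_slash_apply] at h
  rw [← h, mul_comm, mul_assoc, ← zpow_add₀ (denom_ne_zero _ _)]
  simp

theorem H_smul (γ : SL(2, ℤ)) (τ : ℍ) :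
    s.H (γ • τ) = denom γ τ ^ (2 * s.K - 12 * (ex N : ℤ)) * s.H τ := by
  unfold H
  have hx := denom_ne_zero γ τ
  have h1 : denom γ τ ^ (12 * (ex N : ℤ)) = (denom γ τ ^ (12 : ℤ)) ^ ex N := by
    rw [zpow_mul, zpow_natCast]
  rw [D_sq_smul, delta_smul, mul_pow, zpow_sub₀ hx, h1]
  have h2 : (denom γ τ ^ (12 : ℤ)) ^ ex N ≠ 0 := pow_ne_zero _ (zpow_ne_zero _ hx)
  have h3 : Δ τ ^ ex N ≠ 0 := pow_ne_zero _ (discriminant_ne_zero τ)
  field_simp

theorem isMF_H : IsMF 1 (2 * s.K - 12 * (ex N : ℤ)) s.H where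
  hol := by
    have h1 : MDiff (fun τ => s.D τ ^ 2) := s.D_hol.pow 2
    have h2 : MDiff (fun τ => Δ τ ^ ex N) := isCF_delta.hol.pow _
    exact h1.div h2 fun τ => pow_ne_zero _ (discriminant_ne_zero τ)
  inv γ _ := slash_eq_of_smul s.H_smul γ
  bdd σ := by
    rw [slash_eq_of_smul s.H_smul σ]
    exact inf_bdd s.ent s.tfam

/-- replace one member of the system -/
noncomputable def replace (j₀ : Q N) (k' : ℤ) (F' : ℍ → ℂ) (h : IsMF N k' F') : Sys N where
  k := Function.update s.k j₀ k'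
  F := Function.update s.F j₀ F'
  mf j := by
    by_cases hj : j = j₀
    · subst hj
      simpa using h
    · simpa [Function.update_of_ne hj] using s.mf j

theorem replace_K (j₀ : Q N) (k' : ℤ) (F' : ℍ → ℂ) (h : IsMF N k' F') :
    (s.replace j₀ k' F' h).K = s.K - s.k j₀ + k' := by
  unfold K replace
  simp only
  rw [Finset.sum_update_of_mem (Finset.mem_univ j₀), ← Finset.sum_erase_eq_sub (Finset.mem_univ j₀),
    Finset.sdiff_singleton_eq_erase]
  ring

theorem replace_mat (j₀ : Q N) (k' : ℤ) (F' : ℍ → ℂ) (h : IsMF N k' F') (τ : ℍ) :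
    (s.replace j₀ k' F' h).mat τ = (s.mat τ).updateRow j₀ (fun q => cj k' F' q τ) := by
  ext j q
  by_cases hj : j = j₀
  · subst hj
    simp [mat, ent, replace]
  · simp [mat, ent, replace, Function.update_of_ne hj, Matrix.updateRow_ne hj]

/-- the determinant after a replacement by a combination of the rows -/
theorem replace_D (j₀ : Q N) (k' : ℤ) (F' : ℍ → ℂ) (h : IsMF N k' F') (τ : ℍ) (b : ℂ)
    (a : Q N → ℂ) (hb : ∀ q, b * cj k' F' q τ = ∑ j, a j * s.ent j q τ) :
    b * (s.replace j₀ k' F' h).D τ = a j₀ * s.D τ := by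
  unfold D
  rw [replace_mat, ← Matrix.det_updateRow_smul]
  have : (b • fun q => cj k' F' q τ) = ∑ j, a j • s.mat τ j := by
    funext q
    simp only [Pi.smul_apply, smul_eq_mul, hb q, Finset.sum_apply]
    rfl
  rw [this, Matrix.det_updateRow_sum]
  rfl

end Sys

end Fermat.Agent.S20
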