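import Mathlib
import Fermat.Agent.S20.Sys
import Fermat.Agent.S23.Quot
import Fermat.Agent.S23.LevelOne
import Fermat.Agent.X0.JFun

/-!
# The exchange step
-/

set_option autoImplicit false
set_option linter.unusedSectionVars false

open UpperHalfPlane hiding I
open Function Complex Filter
open scoped Manifold Real MatrixGroups ModularForm Topology
open CongruenceSubgroup Matrix.SpecialLinearGroup ModularForm EisensteinSeries

namespace Fermat.Agent.S20

local notation "Δ" => ModularForm.discriminant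

/-- two nonzero holomorphic functions on `ℍ` have a common non-zero -/
theorem exists_mul_ne_zero {f g : ℍ → ℂ} (hf : MDiff f) (hg : MDiff g) (hf0 : f ≠ 0) (hg0 : g ≠ 0) :
    ∃ τ : ℍ, f τ ≠ 0 ∧ g τ ≠ 0 := by
  have h1 := Fermat.Agent.S23.quot_eventually_ne f hf hf0 UpperHalfPlane.I.im_pos
  have h2 := Fermat.Agent.S23.quot_eventually_ne g hg hg0 UpperHalfPlane.I.im_pos
  obtain ⟨z, hz1, hz2⟩ := (h1.and h2).exists
  exact ⟨ofComplex z, hz1, hz2⟩

namespace Sys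

variable {N : ℕ} [NeZero N] (s : Sys N)

/-- independence -/
def Indep : Prop := ∃ τ, s.D τ ≠ 0

variable {s}

theorem Indep.D_ne_zero (h : s.Indep) : s.D ≠ 0 := by
  obtain ⟨τ, hτ⟩ := h
  intro h0
  exact hτ (congrFun h0 τ)

theorem Indep.F_ne_zero (h : s.Indep) (j : Q N) : s.F j ≠ 0 := by
  obtain ⟨τ, hτ⟩ := h
  intro h0
  apply hτ
  unfold D
  apply Matrix.det_eq_zero_of_row_eq_zero j
  intro q
  change cj (s.k j) (s.F j) q τ = 0
  rw [h0]
  unfold cj
  rw [SlashAction.zero_slash]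
  rfl

theorem Indep.k_nonneg (h : s.Indep) (j : Q N) : 0 ≤ s.k j := by
  by_contra hlt
  exact h.F_ne_zero j ((s.mf j).eq_zero_of_neg (not_le.mp hlt))

theorem Indep.k_even (h : s.Indep) (j : Q N) : Even (s.k j) := by
  by_contra hodd
  exact h.F_ne_zero j ((s.mf j).eq_zero_of_odd (Int.not_even_iff_odd.mp hodd))

theorem Indep.K_nonneg (h : s.Indep) : 0 ≤ s.K := Finset.sum_nonneg fun j _ => h.k_nonneg j

variable (s)

/-- combinations with level one coefficients -/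
noncomputable def comb (c : Q N → ℂ) (A : Q N → ℍ → ℂ) : ℍ → ℂ := ∑ j, c j • (A j * s.F j)

theorem isMF_comb (c : Q N → ℂ) (A : Q N → ℍ → ℂ) (K' : ℤ)
    (hA : ∀ j, IsMF 1 (K' - s.k j) (A j)) : IsMF N K' (s.comb c A) :=
  IsMF.sum _ fun j _ => (((hA j).of_one.mul (s.mf j)).congr_weight (by ring)).smul _

theorem cj_comb (c : Q N → ℂ) (A : Q N → ℍ → ℂ) (K' : ℤ)
    (hA : ∀ j, IsMF 1 (K' - s.k j) (A j)) (q : Q N) (τ : ℍ) :
    cj K' (s.comb c A) q τ = ∑ j, c j * A j τ * s.ent j q τ := by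
  unfold comb
  rw [cj_sum, Finset.sum_apply]
  refine Finset.sum_congr rfl fun j _ => ?_
  have h1 : cj K' (A j * s.F j) q = A j * s.ent j q := by
    have h2 := cj_mul (K' - s.k j) (s.k j) (A j) (s.F j) q
    rw [sub_add_cancel, cj_of_one (hA j)] at h2
    exact h2
  rw [cj_smul, h1]
  simp [mul_assoc]

/-- **The exchange step.** -/
theorem step (hs : s.Indep) (c : Q N → ℂ) (A : Q N → ℍ → ℂ) (K' : ℤ)
    (hA : ∀ j, IsMF 1 (K' - s.k j) (A j)) (j₀ : Q N) (hc : c j₀ ≠ 0) (hA0 : A j₀ ≠ 0)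
    (b : ℤ) (B F' : ℍ → ℂ) (hB : IsMF 1 b B) (hF' : IsMF N (K' - b) F')
    (hBF : s.comb c A = B * F') (hlt : K' - b < s.k j₀) :
    ∃ s' : Sys N, s'.Indep ∧ s'.K < s.K := by
  refine ⟨s.replace j₀ (K' - b) F' hF', ?_, ?_⟩
  · obtain ⟨τ, h1, h2⟩ := exists_mul_ne_zero (hA j₀).hol s.D_hol hA0 hs.D_ne_zero
    refine ⟨τ, fun h0 => ?_⟩
    have h3 := s.replace_D j₀ (K' - b) F' hF' τ (B τ) (fun j => c j * A j τ) (fun q => by
      rw [← s.cj_comb c A K' hA q τ, hBF]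
      have h4 := cj_mul b (K' - b) B F' q
      rw [add_sub_cancel, cj_of_one hB] at h4
      rw [h4]
      rfl)
    rw [h0, mul_zero] at h3
    exact mul_ne_zero (mul_ne_zero hc h1) h2 h3.symm
  · rw [replace_K]
    linarith

end Sys

/-- monomials in `E₄`, `E₆` -/
theorem exists_levelOne (w : ℤ) (hw : 4 ≤ w) (hev : Even w) :
    ∃ A : ℍ → ℂ, IsMF 1 w A ∧ Tendsto A atImInfty (𝓝 1) ∧
      ∀ t : ℍ, E₄ t ≠ 0 → E₆ t ≠ 0 → A t ≠ 0 := by
  obtain ⟨a, b, hab⟩ := Fermat.Agent.S23.levelOne_exists_ab hw hev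
  refine ⟨(⇑E₄) ^ a * (⇑E₆) ^ b, ((isMF_E4.pow a).mul (isMF_E6.pow b)).congr_weight (by linarith),
    ?_, fun t h4 h6 => mul_ne_zero (pow_ne_zero _ h4) (pow_ne_zero _ h6)⟩
  have := (Fermat.Agent.X0.jf_E4_tendsto.pow a).mul (Fermat.Agent.X0.jf_E6_tendsto.pow b)
  simp only [one_pow, mul_one] at this
  exact this

end Fermat.Agent.S20
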