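import Mathlib
import Fermat.Agent.S20.Step
import Fermat.Agent.S20.Div

/-!
# The descent: the four kinds of exchange steps
-/

set_option autoImplicit false
set_option linter.unusedSectionVars false

open UpperHalfPlane hiding I
open Function Complex Filter
open scoped Manifold Real MatrixGroups ModularForm Topology
open CongruenceSubgroup Matrix.SpecialLinearGroup ModularForm EisensteinSeries

namespace Fermat.Agent.S20

local notation "Δ" => ModularForm.discriminant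

theorem isMF_Pform (t : ℍ) : IsMF 1 12 (Pform t) := by
  unfold Pform
  have h1 : IsMF 1 12 ((E₆ t ^ 2) • (⇑E₄) ^ 3) :=
    ((isMF_E4.pow 3).congr_weight (by norm_num)).smul _
  have h2 : IsMF 1 12 ((-(E₄ t ^ 3)) • (⇑E₆) ^ 2) :=
    ((isMF_E6.pow 2).congr_weight (by norm_num)).smul _
  have h3 := h1.add h2
  convert h3 using 1
  funext τ
  simp [sub_eq_add_neg]

theorem IsMF.apply_T_smul {k : ℤ} {A : ℍ → ℂ} (hA : IsMF 1 k A) (τ : ℍ) :
    A (ModularGroup.T • τ) = A τ := by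
  have h := congrFun (hA.inv_one ModularGroup.T) τ
  rw [ModularForm.SL_slash_apply, Sys.denom_T, one_zpow, mul_one] at h
  exact h

namespace Sys

variable {N : ℕ} [NeZero N] (s : Sys N)

/-- a kernel vector at a zero of the determinant -/
theorem exists_kernel {t : ℍ} (hD : s.D t = 0) :
    ∃ c : Q N → ℂ, c ≠ 0 ∧ ∀ q, ∑ j, c j * s.ent j q t = 0 := by
  obtain ⟨c, hc, h⟩ := Matrix.exists_vecMul_eq_zero_iff.mpr hD
  exact ⟨c, hc, fun q => congrFun h q⟩

theorem exists_max_support {c : Q N → ℂ} (hc : c ≠ 0) :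
    ∃ j₀, c j₀ ≠ 0 ∧ ∀ j, c j ≠ 0 → s.k j ≤ s.k j₀ := by
  have hne : (Finset.univ.filter fun j => c j ≠ 0).Nonempty := by
    by_contra h
    rw [Finset.not_nonempty_iff_eq_empty, Finset.filter_eq_empty_iff] at h
    exact hc (funext fun j => by simpa using h (Finset.mem_univ j))
  obtain ⟨j₀, hj₀, hmax⟩ := Finset.exists_max_image _ s.k hne
  exact ⟨j₀, (Finset.mem_filter.mp hj₀).2, fun j hj => hmax j (Finset.mem_filter.mpr ⟨Finset.mem_univ j, hj⟩)⟩

/-- multipliers of weight `k j₀ + 4 - k j` on the support of `c` -/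
theorem exists_multipliers (hs : s.Indep) {c : Q N → ℂ} {j₀ : Q N}
    (hmax : ∀ j, c j ≠ 0 → s.k j ≤ s.k j₀) :
    ∃ A : Q N → ℍ → ℂ, (∀ j, IsMF 1 (s.k j₀ + 4 - s.k j) (A j)) ∧
      (∀ j, c j ≠ 0 → Tendsto (A j) atImInfty (𝓝 1)) ∧
      (∀ j, c j ≠ 0 → ∀ t : ℍ, E₄ t ≠ 0 → E₆ t ≠ 0 → A j t ≠ 0) := by
  have h : ∀ j, ∃ A : ℍ → ℂ, IsMF 1 (s.k j₀ + 4 - s.k j) A ∧
      (c j ≠ 0 → Tendsto A atImInfty (𝓝 1)) ∧
      (c j ≠ 0 → ∀ t : ℍ, E₄ t ≠ 0 → E₆ t ≠ 0 → A t ≠ 0) := by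
    intro j
    by_cases hj : c j ≠ 0
    · obtain ⟨A, h1, h2, h3⟩ := exists_levelOne (s.k j₀ + 4 - s.k j) (by linarith [hmax j hj])
        (((hs.k_even j₀).add (by decide)).sub (hs.k_even j))
      exact ⟨A, h1, fun _ => h2, fun _ => h3⟩
    · exact ⟨0, isMF_zero, fun h => absurd h hj, fun h => absurd h hj⟩
  choose A h1 h2 h3 using h
  exact ⟨A, h1, h2, h3⟩

theorem ne_zero_of_tendsto_one {A : ℍ → ℂ} (h : Tendsto A atImInfty (𝓝 1)) : A ≠ 0 := by
  intro h0
  rw [h0] at h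
  have h1 : Tendsto (0 : ℍ → ℂ) atImInfty (𝓝 0) := tendsto_const_nhds
  exact zero_ne_one (tendsto_nhds_unique h1 h)

/-- exchange step at a generic point -/
theorem step_generic (hs : s.Indep) (t : ℍ) (h4 : E₄ t ≠ 0) (h6 : E₆ t ≠ 0) (hD : s.D t = 0) :
    ∃ s' : Sys N, s'.Indep ∧ s'.K < s.K := by
  obtain ⟨c', hc', hker⟩ := s.exists_kernel hD
  obtain ⟨j₀, hj₀, hmax⟩ := s.exists_max_support hc'
  obtain ⟨A, hA, hA1, hAt⟩ := s.exists_multipliers hs hmax
  set c : Q N → ℂ := fun j => c' j / A j t with hc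
  have hvan : ∀ q : Q N, cj (s.k j₀ + 4) (s.comb c A) q t = 0 := by
    intro q
    rw [s.cj_comb c A _ hA, ← hker q]
    refine Finset.sum_congr rfl fun j _ => ?_
    by_cases hj : c' j = 0
    · simp [hc, hj]
    · rw [hc]
      simp only
      rw [div_mul_cancel₀ _ (hAt j hj t h4 h6)]
  obtain ⟨g, hg, hfg⟩ := div_generic t h4 h6 (s.isMF_comb c A _ hA) hvan
  exact s.step hs c A _ hA j₀ (div_ne_zero hj₀ (hAt j₀ hj₀ t h4 h6))
    (ne_zero_of_tendsto_one (hA1 j₀ hj₀)) 12 (Pform t) g (isMF_Pform t) hg hfg (by linarith)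

/-- exchange step at `i∞` -/
theorem step_infty (hs : s.Indep) (h0 : IsZeroAtImInfty s.H) :
    ∃ s' : Sys N, s'.Indep ∧ s'.K < s.K := by
  obtain ⟨c, hc, hker⟩ := inf_kernel s.ent s.tfam h0
  obtain ⟨j₀, hj₀, hmax⟩ := s.exists_max_support hc
  obtain ⟨A, hA, hA1, -⟩ := s.exists_multipliers hs hmax
  set A' : Q N → ℍ → ℂ := fun j => if c j = 0 then 1 else A j with hA'
  have hb := hker A'
    (fun j => by
      simp only [hA']
      split_ifs with hj
      · exact (mdifferentiable_const : MDiff (fun _ : ℍ => (1 : ℂ)))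
      · exact (hA j).hol)
    (fun j τ => by
      simp only [hA']
      split_ifs with hj
      · rfl
      · exact (hA j).apply_T_smul τ)
    (fun j => by
      simp only [hA']
      split_ifs with hj
      · exact (tendsto_const_nhds : Tendsto (fun _ : ℍ => (1 : ℂ)) _ _)
      · exact hA1 j hj)
  have hvan : ∀ q : Q N, IsBoundedAtImInfty (fun τ => cj (s.k j₀ + 4) (s.comb c A) q τ / Δ τ) := by
    intro q
    convert hb q using 3 with τ
    rw [s.cj_comb c A _ hA]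
    refine Finset.sum_congr rfl fun j _ => ?_
    by_cases hj : c j = 0
    · simp [hj]
    · simp [hA', hj]
  obtain ⟨g, hg, hfg⟩ := div_delta (s.isMF_comb c A _ hA) hvan
  exact s.step hs c A _ hA j₀ hj₀ (ne_zero_of_tendsto_one (hA1 j₀ hj₀)) 12 Δ g
    isCF_delta.isMF hg hfg (by linarith)

/-- exchange step at an elliptic point -/
theorem step_elliptic (hs : s.Indep) (ε : SL(2, ℤ)) (t : ℍ) (hfix : ε • t = t) (e : ℕ)
    (hζ : IsPrimitiveRoot (denom ε t) e)
    (E : ℍ → ℂ) (hE : IsMF 1 e E) (hEt : E t ≠ 0)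
    (b : ℤ) (hb : 0 < b) (B : ℍ → ℂ) (hB : IsMF 1 b B)
    (hdiv : ∀ (k : ℤ) (f : ℍ → ℂ), IsMF N k f → (∀ q : Q N, cj k f q t = 0) →
      ∃ g, IsMF N (k - b) g ∧ f = B * g)
    (hD : s.D t = 0) : ∃ s' : Sys N, s'.Indep ∧ s'.K < s.K := by
  obtain ⟨c', hc', hker⟩ := s.exists_kernel hD
  have hζ0 : denom ε t ≠ 0 := denom_ne_zero _ _
  set μ : Q N → ℂ := fun j => (denom ε t ^ s.k j)⁻¹ with hμ
  have heig : ∀ j q, s.ent j (ε⁻¹ • q) t = μ j * s.ent j q t := by
    intro j q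
    have h1 := s.ent_smul j q ε t
    rw [hfix] at h1
    rw [h1, hμ]
    simp only
    rw [← mul_assoc, inv_mul_cancel₀ (zpow_ne_zero _ hζ0), one_mul]
  have hkerprod : ∀ V : Finset ℂ, ∀ q, ∑ j, (c' j * ∏ v ∈ V, (μ j - v)) * s.ent j q t = 0 := by
    intro V
    induction V using Finset.induction_on with
    | empty => simpa using hker
    | insert v V hv ih =>
      intro q
      have h1 := ih (ε⁻¹ • q)
      have h2 := ih q
      simp only [heig] at h1
      have h3 : ∑ j, (c' j * ∏ v ∈ insert v V, (μ j - v)) * s.ent j q t =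
          ∑ j, (c' j * ∏ v ∈ V, (μ j - v)) * (μ j * s.ent j q t) -
            v * ∑ j, (c' j * ∏ v ∈ V, (μ j - v)) * s.ent j q t := by
        rw [Finset.mul_sum, ← Finset.sum_sub_distrib]
        refine Finset.sum_congr rfl fun j _ => ?_
        rw [Finset.prod_insert hv]
        ring
      rw [h3, h1, h2]
      simp
  obtain ⟨j₁, hj₁⟩ : ∃ j₁, c' j₁ ≠ 0 := by
    by_contra h
    push Not at h
    exact hc' (funext h)
  set V : Finset ℂ := (Finset.univ.image μ).erase (μ j₁) with hV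
  set c'' : Q N → ℂ := fun j => c' j * ∏ v ∈ V, (μ j - v) with hc''
  have hc''1 : c'' j₁ ≠ 0 := by
    refine mul_ne_zero hj₁ (Finset.prod_ne_zero_iff.mpr fun v hv => ?_)
    exact sub_ne_zero.mpr (Finset.ne_of_mem_erase hv).symm
  have hsupp : ∀ j, c'' j ≠ 0 → μ j = μ j₁ := by
    intro j hj
    by_contra hne
    apply hj
    have hmem : μ j ∈ V := Finset.mem_erase.mpr ⟨hne, Finset.mem_image_of_mem μ (Finset.mem_univ j)⟩
    rw [hc'']
    simp only
    rw [Finset.prod_eq_zero hmem (sub_self _), mul_zero]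
  have hc''0 : c'' ≠ 0 := fun h => hc''1 (congrFun h j₁)
  obtain ⟨j₀, hj₀, hmax⟩ := s.exists_max_support hc''0
  have hexp : ∀ j, c'' j ≠ 0 → ∃ m : ℕ, s.k j₀ - s.k j = (m : ℤ) * (e : ℤ) := by
    intro j hj
    have h1 : μ j = μ j₀ := (hsupp j hj).trans (hsupp j₀ hj₀).symm
    have h2 : denom ε t ^ (s.k j₀ - s.k j) = 1 := by
      rw [zpow_sub₀ hζ0]
      have h3 : denom ε t ^ s.k j = denom ε t ^ s.k j₀ := inv_injective h1
      rw [h3, div_self (zpow_ne_zero _ hζ0)]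
    obtain ⟨m, hm⟩ := (hζ.zpow_eq_one_iff_dvd _).mp h2
    have hnn : 0 ≤ s.k j₀ - s.k j := by linarith [hmax j hj]
    rcases Nat.eq_zero_or_pos e with he | he
    · refine ⟨0, ?_⟩
      rw [hm, he]
      simp
    · have hm0 : 0 ≤ m := by
        by_contra hneg
        push Not at hneg
        have : (e : ℤ) * m < 0 := mul_neg_of_pos_of_neg (by exact_mod_cast he) hneg
        linarith
      exact ⟨m.toNat, by rw [Int.toNat_of_nonneg hm0, hm]; ring⟩
  have hAex : ∀ j, ∃ A : ℍ → ℂ, IsMF 1 (s.k j₀ - s.k j) A ∧ (c'' j ≠ 0 → A t ≠ 0) := by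
    intro j
    by_cases hj : c'' j ≠ 0
    · obtain ⟨m, hm⟩ := hexp j hj
      exact ⟨E ^ m, (hE.pow m).congr_weight hm.symm, fun _ => pow_ne_zero _ hEt⟩
    · exact ⟨0, isMF_zero, fun h => absurd h hj⟩
  choose A hA hAt using hAex
  set c : Q N → ℂ := fun j => c'' j / A j t with hc
  have hvan : ∀ q : Q N, cj (s.k j₀) (s.comb c A) q t = 0 := by
    intro q
    rw [s.cj_comb c A _ hA, ← hkerprod V q]
    refine Finset.sum_congr rfl fun j _ => ?_
    by_cases hj : c'' j = 0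
    · have : c' j * ∏ v ∈ V, (μ j - v) = 0 := hj
      simp [hc, hj, this]
    · rw [hc]
      simp only
      rw [div_mul_cancel₀ _ (hAt j hj)]
  obtain ⟨g, hg, hfg⟩ := hdiv _ _ (s.isMF_comb c A _ hA) hvan
  exact s.step hs c A _ hA j₀ (div_ne_zero hj₀ (hAt j₀ hj₀))
    (fun h => hAt j₀ hj₀ (congrFun h t)) b B g hB hg hfg (by linarith)

end Sys

end Fermat.Agent.S20
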