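import Mathlib
import Fermat.Agent.S20.Descent
import Fermat.Agent.S23.GForm
import Fermat.Agent.S23.Sym

/-!
# Existence of a good system
-/

set_option autoImplicit false
set_option linter.unusedSectionVars false

open UpperHalfPlane hiding I
open Function Complex Filter
open scoped Manifold Real MatrixGroups ModularForm Topology
open CongruenceSubgroup Matrix.SpecialLinearGroup ModularForm EisensteinSeries

namespace Fermat.Agent.S20

local notation "Δ" => ModularForm.discriminant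

/-- finitely many nonzero holomorphic functions on `ℍ` have a common non-zero -/
theorem exists_forall_ne_zero {ι : Type*} [Finite ι] (f : ι → ℍ → ℂ) (hf : ∀ i, MDiff (f i))
    (hf0 : ∀ i, f i ≠ 0) : ∃ τ : ℍ, ∀ i, f i τ ≠ 0 := by
  have h1 := fun i => Fermat.Agent.S23.quot_eventually_ne (f i) (hf i) (hf0 i)
    UpperHalfPlane.I.im_pos
  obtain ⟨z, hz⟩ := (Filter.eventually_all.mpr h1).exists
  exact ⟨ofComplex z, hz⟩

theorem E6_ptRho_ne_zero : E₆ ptRho ≠ 0 := by
  intro h
  have h1 := Fermat.Agent.X0.jf_disc_eq ptRho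
  rw [E4_ptRho, h] at h1
  have h2 := discriminant_ne_zero ptRho
  apply h2
  simpa using h1

theorem E4_I_ne_zero : E₄ UpperHalfPlane.I ≠ 0 := by
  intro h
  have h1 := Fermat.Agent.X0.jf_disc_eq UpperHalfPlane.I
  rw [E6_I, h] at h1
  have h2 := discriminant_ne_zero UpperHalfPlane.I
  apply h2
  simpa using h1

namespace Sys

variable {N : ℕ} [NeZero N] (s : Sys N)

theorem D_eq_zero_of_H {t : ℍ} (h : s.H t = 0) : s.D t = 0 := by
  unfold H at h
  rcases div_eq_zero_iff.mp h with h | h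
  · exact pow_eq_zero_iff (two_ne_zero) |>.mp h
  · exact absurd h (pow_ne_zero _ (discriminant_ne_zero t))

theorem exists_smaller (hs : s.Indep) (hw : 0 < 2 * s.K - 12 * (ex N : ℤ)) :
    ∃ s' : Sys N, s'.Indep ∧ s'.K < s.K := by
  by_cases h0 : IsZeroAtImInfty s.H
  · exact s.step_infty hs h0
  · have h1 : (qExpansion 1 s.isMF_H.toFormOne).coeff 0 ≠ 0 := by
      intro h
      apply h0
      have h2 := Fermat.Agent.X0.jf_tendsto_valueAtInfty s.isMF_H.toFormOne
      rw [h] at h2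
      exact h2
    obtain ⟨t, ht⟩ := Fermat.Agent.X0.jf_exists_zero hw s.isMF_H.toFormOne h1
    have ht' : s.H t = 0 := ht
    by_cases h4 : E₄ t = 0
    · have hρ := s.D_eq_zero_of_H (zero_at_rho s.isMF_H t h4 ht')
      exact s.step_elliptic hs Um ptRho Um_smul_ptRho 6 isPrimitiveRoot_denom_Um E₆ isMF_E6
        E6_ptRho_ne_zero 4 (by norm_num) E₄ isMF_E4 (fun k f hf h => div_E4 hf h) hρ
    · by_cases h6 : E₆ t = 0
      · have hi := s.D_eq_zero_of_H (zero_at_I s.isMF_H t h6 ht')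
        exact s.step_elliptic hs ModularGroup.S UpperHalfPlane.I S_smul_I 4 isPrimitiveRoot_denom_S
          E₄ isMF_E4 E4_I_ne_zero 6 (by norm_num) E₆ isMF_E6 (fun k f hf h => div_E6 hf h) hi
      · exact s.step_generic hs t h4 h6 (s.D_eq_zero_of_H ht')

end Sys

section initial

variable (N : ℕ) [NeZero N]

theorem cj_pow (k : ℤ) (f : ℍ → ℂ) (n : ℕ) (q : Q N) : cj (n * k) (f ^ n) q = (cj k f q) ^ n := by
  unfold cj
  rw [mul_comm]
  exact Fermat.Agent.S23.sym_pow_slash k f n _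

theorem cj_injective {G : ℍ → ℂ} (hG : ∀ γ ∈ Gamma0 N, G ∣[(4 : ℤ)] γ = G)
    (hstab : ∀ γ : SL(2, ℤ), G ∣[(4 : ℤ)] γ = G → γ ∈ Gamma0 N) :
    Function.Injective (fun q : Q N => cj 4 G q) := by
  intro q q' h
  induction q using QuotientGroup.induction_on with
  | H g =>
    induction q' using QuotientGroup.induction_on with
    | H g' =>
      simp only [cj_mk hG] at h
      have h1 : G ∣[(4 : ℤ)] (g⁻¹ * g') = G := by
        rw [SlashAction.slash_mul, h, ← SlashAction.slash_mul]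
        simp
      exact QuotientGroup.eq.mpr (hstab _ h1)

/-- the initial system `1, G, G², …` -/
theorem exists_indep : ∃ s : Sys N, s.Indep := by
  obtain ⟨G, -, hstab⟩ := Fermat.Agent.S23.gForm_exists N
  have hG := isMF_coe G
  let e : Q N ≃ Fin (Fintype.card (Q N)) := Fintype.equivFin _
  let s : Sys N :=
    { k := fun j => ((e j : ℕ) : ℤ) * 4
      F := fun j => (⇑G) ^ (e j : ℕ)
      mf := fun j => hG.pow _ }
  refine ⟨s, ?_⟩
  have hinj := cj_injective N hG.inv hstab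
  obtain ⟨τ, hτ⟩ := exists_forall_ne_zero
    (fun p : {p : Q N × Q N // p.1 ≠ p.2} => cj 4 (⇑G) p.1.1 - cj 4 (⇑G) p.1.2)
    (fun p => (hG.cj_hol _).sub (hG.cj_hol _))
    (fun p h => p.2 (hinj (sub_eq_zero.mp h)))
  refine ⟨τ, ?_⟩
  have hinjτ : Function.Injective (fun i : Fin (Fintype.card (Q N)) => cj 4 (⇑G) (e.symm i) τ) := by
    intro i i' h
    by_contra hne
    have hne' : e.symm i ≠ e.symm i' := fun h' => hne (e.symm.injective h')
    exact hτ ⟨(e.symm i, e.symm i'), hne'⟩ (sub_eq_zero.mpr h)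
  have hmat : s.mat τ = ((Matrix.vandermonde
      (fun i : Fin (Fintype.card (Q N)) => cj 4 (⇑G) (e.symm i) τ)).transpose).submatrix e e := by
    ext j q
    simp only [Sys.mat, Sys.ent, Matrix.of_apply, Matrix.submatrix_apply, Matrix.transpose_apply,
      Matrix.vandermonde_apply, Equiv.symm_apply_apply]
    change cj (((e j : ℕ) : ℤ) * 4) ((⇑G) ^ (e j : ℕ)) q τ = _
    rw [cj_pow]
    rfl
  unfold Sys.D
  rw [hmat, Matrix.det_submatrix_equiv_self, Matrix.det_transpose]
  exact Matrix.det_vandermonde_ne_zero_iff.mpr hinjτ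

theorem exists_min : ∃ s : Sys N, s.Indep ∧ ∀ s' : Sys N, s'.Indep → s.K ≤ s'.K := by
  classical
  have hex : ∃ n : ℕ, ∃ s : Sys N, s.Indep ∧ s.K.toNat = n := by
    obtain ⟨s, hs⟩ := exists_indep N
    exact ⟨_, s, hs, rfl⟩
  obtain ⟨s, hs, hn⟩ := Nat.find_spec hex
  refine ⟨s, hs, fun s' hs' => ?_⟩
  have h1 := Nat.find_min' hex ⟨s', hs', rfl⟩
  rw [← hn] at h1
  have h2 := hs.K_nonneg
  have h3 := hs'.K_nonneg
  omega

/-- **Existence of a good system.** -/
theorem exists_good : ∃ s : Sys N, ∃ a : ℂ, a ≠ 0 ∧ (∀ τ, s.D τ ^ 2 = a * Δ τ ^ Sys.ex N) ∧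
    2 * s.K = 12 * (Sys.ex N : ℤ) := by
  obtain ⟨s, hs, hmin⟩ := exists_min N
  have hw : 2 * s.K - 12 * (Sys.ex N : ℤ) = 0 := by
    rcases lt_trichotomy (2 * s.K - 12 * (Sys.ex N : ℤ)) 0 with h | h | h
    · exfalso
      have h0 := s.isMF_H.eq_zero_of_neg h
      obtain ⟨τ, hτ⟩ := hs
      exact hτ (s.D_eq_zero_of_H (congrFun h0 τ))
    · exact h
    · exfalso
      obtain ⟨s', hs', hlt⟩ := s.exists_smaller hs h
      exact absurd (hmin s' hs') (not_le.mpr hlt)
  obtain ⟨a, ha⟩ := (s.isMF_H.congr_weight hw).const_of_weight_zero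
  have hD : ∀ τ, s.D τ ^ 2 = a * Δ τ ^ Sys.ex N := by
    intro τ
    have h1 := congrFun ha τ
    unfold Sys.H at h1
    rw [div_eq_iff (pow_ne_zero _ (discriminant_ne_zero τ))] at h1
    exact h1
  refine ⟨s, a, ?_, hD, by linarith⟩
  rintro rfl
  obtain ⟨τ, hτ⟩ := hs
  apply hτ
  have := hD τ
  rw [zero_mul] at this
  exact pow_eq_zero_iff two_ne_zero |>.mp this

end initial

end Fermat.Agent.S20
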