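import Mathlib
import Fermat.Agent.S20.Good

/-!
# Consequences of the existence of a good system, I: inverse matrix, dual cusp forms
-/

set_option autoImplicit false
set_option linter.unusedSectionVars false

open UpperHalfPlane hiding I
open Function Complex Filter
open scoped Manifold Real MatrixGroups ModularForm Topology
open CongruenceSubgroup Matrix.SpecialLinearGroup ModularForm EisensteinSeries

namespace Fermat.Agent.S20

local notation "Δ" => ModularForm.discriminant

namespace Sys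

variable {N : ℕ} [NeZero N] (s : Sys N)

/-- good systems -/
structure Good : Prop where
  ex_a : ∃ a : ℂ, a ≠ 0 ∧ ∀ τ, s.D τ ^ 2 = a * Δ τ ^ ex N
  wt : 2 * s.K = 12 * (ex N : ℤ)

variable {s}

theorem Good.D_ne_zero (h : s.Good) (τ : ℍ) : s.D τ ≠ 0 := by
  obtain ⟨a, ha, hD⟩ := h.ex_a
  intro h0
  have h1 := hD τ
  rw [h0] at h1
  exact mul_ne_zero ha (pow_ne_zero _ (discriminant_ne_zero τ)) (by simpa using h1.symm)

theorem Good.indep (h : s.Good) : s.Indep := ⟨UpperHalfPlane.I, h.D_ne_zero _⟩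

theorem Good.isUnit_det (h : s.Good) (τ : ℍ) : IsUnit (s.mat τ).det :=
  isUnit_iff_ne_zero.mpr (h.D_ne_zero τ)

theorem Good.mul_inv (h : s.Good) (τ : ℍ) : s.mat τ * (s.mat τ)⁻¹ = 1 :=
  Matrix.mul_nonsing_inv _ (h.isUnit_det τ)

theorem Good.inv_mul (h : s.Good) (τ : ℍ) : (s.mat τ)⁻¹ * s.mat τ = 1 :=
  Matrix.nonsing_inv_mul _ (h.isUnit_det τ)

/-- transformation law of the inverse matrix -/
theorem Good.inv_smul (h : s.Good) (γ : SL(2, ℤ)) (τ : ℍ) (q j : Q N) :
    (s.mat (γ • τ))⁻¹ q j = (s.mat τ)⁻¹ (γ⁻¹ • q) j * (denom γ τ ^ s.k j)⁻¹ := by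
  have hx := denom_ne_zero γ τ
  have h1 : (s.mat (γ • τ))⁻¹ = ((s.mat τ)⁻¹).submatrix (MulAction.toPerm γ⁻¹) id *
      Matrix.diagonal (fun j => (denom γ τ ^ s.k j)⁻¹) := by
    apply Matrix.inv_eq_right_inv
    rw [mat_smul, Matrix.mul_assoc, ← Matrix.mul_assoc ((s.mat τ).submatrix _ _),
      Matrix.submatrix_mul_equiv, h.mul_inv, Matrix.submatrix_id_id, Matrix.one_mul,
      Matrix.diagonal_mul_diagonal]
    have : (fun j => denom γ τ ^ s.k j * (denom γ τ ^ s.k j)⁻¹) = fun _ : Q N => (1 : ℂ) := by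
      funext j
      exact mul_inv_cancel₀ (zpow_ne_zero _ hx)
    rw [this, Matrix.diagonal_one]
  rw [h1, Matrix.mul_diagonal]
  rfl

/-- entries of the inverse matrix are holomorphic -/
theorem Good.inv_hol (h : s.Good) (q j : Q N) : MDiff (fun τ => (s.mat τ)⁻¹ q j) := by
  have h1 : (fun τ => (s.mat τ)⁻¹ q j) = fun τ => (s.D τ)⁻¹ *
      (Matrix.of fun j' q' => (if j' = j then (fun _ : ℍ => (Pi.single q (1 : ℂ) : Q N → ℂ) q')
        else s.ent j' q') τ).det := by
    funext τ
    rw [Matrix.inv_def, Matrix.smul_apply, Matrix.adjugate_apply, Ring.inverse_eq_inv', smul_eq_mul]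
    congr 2
    ext j' q'
    by_cases hj : j' = j
    · subst hj
      simp
    · simp [hj, mat]
  rw [h1]
  have h2 : MDiff (fun τ => (s.D τ)⁻¹) := by
    have := (mdifferentiable_const (c := (1 : ℂ)) : MDiff (fun _ : ℍ => (1 : ℂ))).div s.D_hol
      h.D_ne_zero
    have h3 : (fun τ => (s.D τ)⁻¹) = (fun _ : ℍ => (1 : ℂ)) / s.D := by
      funext τ
      simp
    rw [h3]
    exact this
  refine h2.mul (mdiff_det _ fun j' q' => ?_)
  by_cases hj : j' = j
  · simp only [hj, if_true]
    exact mdifferentiable_const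
  · simp only [hj, if_false]
    exact s.ent_hol j' q'

/-- the dual functions `Δ * (mat⁻¹)_{q,j}` -/
noncomputable def dual (s : Sys N) (q j : Q N) : ℍ → ℂ := fun τ => Δ τ * (s.mat τ)⁻¹ q j

theorem Good.dual_smul (h : s.Good) (γ : SL(2, ℤ)) (τ : ℍ) (q j : Q N) :
    s.dual q j (γ • τ) = denom γ τ ^ (12 - s.k j) * s.dual (γ⁻¹ • q) j τ := by
  unfold dual
  rw [delta_smul, h.inv_smul, zpow_sub₀ (denom_ne_zero _ _)]
  ring

theorem Good.dual_slash (h : s.Good) (γ : SL(2, ℤ)) (q j : Q N) :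
    s.dual q j ∣[12 - s.k j] γ = s.dual (γ⁻¹ • q) j := by
  funext τ
  rw [ModularForm.SL_slash_apply, h.dual_smul, mul_comm, ← mul_assoc,
    ← zpow_add₀ (denom_ne_zero _ _)]
  simp

theorem Good.dual_hol (h : s.Good) (q j : Q N) : MDiff (s.dual q j) :=
  isCF_delta.hol.mul (h.inv_hol q j)

theorem Good.dual_zero (h : s.Good) (q j : Q N) : IsZeroAtImInfty (s.dual q j) := by
  obtain ⟨a, ha, hD⟩ := h.ex_a
  exact inf_inv s.ent s.tfam a ha hD q j

/-- the dual cusp forms -/
theorem Good.isCF_dual (h : s.Good) (j : Q N) :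
    IsCF N (12 - s.k j) (s.dual (QuotientGroup.mk 1) j) where
  hol := h.dual_hol _ j
  inv γ hγ := by
    rw [h.dual_slash]
    congr 1
    rw [MulAction.Quotient.smul_mk]
    exact QuotientGroup.eq.mpr (by simpa using hγ)
  zero σ := by
    rw [h.dual_slash]
    exact h.dual_zero _ j

theorem Good.cj_dual (h : s.Good) (q j : Q N) :
    cj (12 - s.k j) (s.dual (QuotientGroup.mk 1) j) q = s.dual q j := by
  induction q using QuotientGroup.induction_on with
  | H g =>
    rw [cj_mk (h.isCF_dual j).inv, h.dual_slash, inv_inv, MulAction.Quotient.smul_mk]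
    simp

theorem Good.k_lt_twelve (h : s.Good) (j : Q N) : s.k j < 12 := by
  by_contra hge
  push Not at hge
  have h0 := (h.isCF_dual j).eq_zero_of_nonpos (by linarith)
  have h1 : ∀ q, s.dual q j UpperHalfPlane.I = 0 := by
    intro q
    rw [← h.cj_dual q j, h0]
    unfold cj
    rw [SlashAction.zero_slash]
    rfl
  have h2 : ∀ q, (s.mat UpperHalfPlane.I)⁻¹ q j = 0 := by
    intro q
    have := h1 q
    unfold dual at this
    exact (mul_eq_zero.mp this).resolve_left (discriminant_ne_zero _)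
  have h3 := congrFun (congrFun (h.mul_inv UpperHalfPlane.I) j) j
  rw [Matrix.mul_apply, Matrix.one_apply_eq] at h3
  simp [h2] at h3

end Sys

end Fermat.Agent.S20
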