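import Mathlib
import Fermat.Agent.S20.Concl1

/-!
# Consequences of the existence of a good system, II: traces, coefficients, weight zero
-/

set_option autoImplicit false
set_option linter.unusedSectionVars false

open UpperHalfPlane hiding I
open Function Complex Filter
open scoped Manifold Real MatrixGroups ModularForm Topology
open CongruenceSubgroup Matrix.SpecialLinearGroup ModularForm EisensteinSeries

namespace Fermat.Agent.S20

local notation "Δ" => ModularForm.discriminant

theorem bdd_of_sq_bdd {f : ℍ → ℂ} (h : IsBoundedAtImInfty (fun τ => f τ ^ 2)) :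
    IsBoundedAtImInfty f := by
  rw [isBoundedAtImInfty_iff] at h ⊢
  obtain ⟨M, A, hM⟩ := h
  refine ⟨max 1 M, A, fun z hz => ?_⟩
  have h1 := hM z hz
  rw [norm_pow] at h1
  by_cases h2 : ‖f z‖ ≤ 1
  · exact h2.trans (le_max_left _ _)
  · push Not at h2
    refine le_trans ?_ (le_max_right _ _)
    nlinarith

namespace Sys

variable {N : ℕ} [NeZero N] {s : Sys N}

/-- the trace identity at a fixed point -/
theorem Good.trace_identity (h : s.Good) (ε : SL(2, ℤ)) (t : ℍ) (hfix : ε • t = t) :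
    ∑ j, (denom ε t ^ s.k j)⁻¹ = (Nat.card {q : Q N // ε • q = q} : ℂ) := by
  have h1 : ∀ q j, (s.mat t)⁻¹ q j = (s.mat t)⁻¹ (ε⁻¹ • q) j * (denom ε t ^ s.k j)⁻¹ := by
    intro q j
    have := h.inv_smul ε t q j
    rwa [hfix] at this
  have h2 : ∀ j, (denom ε t ^ s.k j)⁻¹ = ∑ q, (s.mat t)⁻¹ q j * s.mat t j (ε⁻¹ • q) := by
    intro j
    have h3 := congrFun (congrFun (h.mul_inv t) j) j
    rw [Matrix.mul_apply, Matrix.one_apply_eq,
      ← Equiv.sum_comp (MulAction.toPerm (ε⁻¹ : SL(2, ℤ)))] at h3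
    simp only [MulAction.toPerm_apply] at h3
    calc (denom ε t ^ s.k j)⁻¹ = (∑ q, s.mat t j (ε⁻¹ • q) * (s.mat t)⁻¹ (ε⁻¹ • q) j) *
          (denom ε t ^ s.k j)⁻¹ := by rw [h3, one_mul]
      _ = ∑ q, (s.mat t)⁻¹ q j * s.mat t j (ε⁻¹ • q) := by
          rw [Finset.sum_mul]
          refine Finset.sum_congr rfl fun q _ => ?_
          rw [h1 q j]
          ring
  simp_rw [h2]
  rw [Finset.sum_comm]
  have h4 : ∀ q, ∑ j, (s.mat t)⁻¹ q j * s.mat t j (ε⁻¹ • q) =
      if q = ε⁻¹ • q then 1 else 0 := by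
    intro q
    have := congrFun (congrFun (h.inv_mul t) q) (ε⁻¹ • q)
    rw [Matrix.mul_apply, Matrix.one_apply] at this
    exact this
  simp_rw [h4]
  rw [Finset.sum_boole, Nat.card_eq_fintype_card, Fintype.card_subtype]
  congr 2
  ext q
  simp only [Finset.mem_filter, Finset.mem_univ, true_and]
  rw [eq_inv_smul_iff]

/-- coefficients of a modular form with respect to a good system -/
noncomputable def coef (s : Sys N) (k : ℤ) (F : ℍ → ℂ) (j : Q N) : ℍ → ℂ :=
  fun τ => ∑ q, cj k F q τ * (s.mat τ)⁻¹ q j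

theorem Good.sum_coef (h : s.Good) (k : ℤ) (F : ℍ → ℂ) (q : Q N) (τ : ℍ) :
    ∑ j, s.coef k F j τ * s.ent j q τ = cj k F q τ := by
  unfold coef
  simp_rw [Finset.sum_mul]
  rw [Finset.sum_comm]
  have h1 : ∀ q', ∑ j, cj k F q' τ * (s.mat τ)⁻¹ q' j * s.ent j q τ =
      cj k F q' τ * (if q' = q then 1 else 0) := by
    intro q'
    have := congrFun (congrFun (h.inv_mul τ) q') q
    rw [Matrix.mul_apply, Matrix.one_apply] at this
    rw [← this, Finset.mul_sum]
    refine Finset.sum_congr rfl fun j _ => ?_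
    rw [mul_assoc]
    rfl
  simp_rw [h1]
  simp

theorem Good.coef_mul_D (h : s.Good) {k : ℤ} {F : ℍ → ℂ} (hF : IsMF N k F) (j : Q N) (τ : ℍ) :
    (s.replace j k F hF).D τ = s.coef k F j τ * s.D τ := by
  have := s.replace_D j k F hF τ 1 (fun j => s.coef k F j τ) (fun q => by
    rw [one_mul, h.sum_coef])
  rwa [one_mul] at this

theorem Good.coef_smul (h : s.Good) {k : ℤ} {F : ℍ → ℂ} (hF : IsMF N k F) (j : Q N)
    (γ : SL(2, ℤ)) (τ : ℍ) :
    s.coef k F j (γ • τ) = denom γ τ ^ (k - s.k j) * s.coef k F j τ := by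
  unfold coef
  rw [← Equiv.sum_comp (MulAction.toPerm (γ⁻¹ : SL(2, ℤ))) (fun q => cj k F q τ * (s.mat τ)⁻¹ q j),
    Finset.mul_sum]
  refine Finset.sum_congr rfl fun q _ => ?_
  rw [cj_smul_apply hF.inv, h.inv_smul, zpow_sub₀ (denom_ne_zero _ _), MulAction.toPerm_apply]
  ring

theorem Good.isMF_coef (h : s.Good) {k : ℤ} {F : ℍ → ℂ} (hF : IsMF N k F) (j : Q N) :
    IsMF 1 (k - s.k j) (s.coef k F j) where
  hol := by
    have : s.coef k F j = ∑ q, cj k F q * fun τ => (s.mat τ)⁻¹ q j := by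
      funext τ
      simp [coef, Finset.sum_apply]
    rw [this]
    exact MDifferentiable.sum fun q _ => (hF.cj_hol q).mul (h.inv_hol q j)
  inv γ _ := slash_eq_of_smul (h.coef_smul hF j) γ
  bdd σ := by
    rw [slash_eq_of_smul (h.coef_smul hF j) σ]
    apply bdd_of_sq_bdd
    obtain ⟨a, ha, hD⟩ := h.ex_a
    have h1 := (s.replace j k F hF).isMF_H.bdd 1
    rw [SlashAction.slash_one] at h1
    have h2 : (fun τ => s.coef k F j τ ^ 2) = a⁻¹ • (s.replace j k F hF).H := by
      funext τ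
      simp only [Pi.smul_apply, smul_eq_mul, H]
      rw [h.coef_mul_D hF, mul_pow, hD]
      have := pow_ne_zero (ex N) (discriminant_ne_zero τ)
      field_simp
    rw [h2]
    exact h1.const_smul_left _

theorem cj_const (c : ℂ) (q : Q N) : cj 0 (fun _ : ℍ => c) q = fun _ => c := by
  have h1 : (fun _ : ℍ => c) = c • (1 : ℍ → ℂ) := by
    funext τ
    simp
  rw [h1, cj_smul]
  unfold cj
  rw [ModularForm.is_invariant_one]

/-- there is a member of weight zero -/
theorem Good.exists_k_eq_zero (h : s.Good) : ∃ j, s.k j = 0 := by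
  by_contra hne
  push Not at hne
  have h1 : ∀ j, s.coef 0 1 j = 0 := by
    intro j
    have hpos : 0 < s.k j := lt_of_le_of_ne (h.indep.k_nonneg j) (hne j).symm
    exact (h.isMF_coef (isMF_one (N := N)) j).eq_zero_of_neg (by linarith)
  have h2 := h.sum_coef 0 1 (QuotientGroup.mk 1) UpperHalfPlane.I
  simp only [h1, Pi.zero_apply, zero_mul, Finset.sum_const_zero] at h2
  have h3 : cj 0 (1 : ℍ → ℂ) (QuotientGroup.mk 1 : Q N) UpperHalfPlane.I = 1 := by
    have := congrFun (cj_const (N := N) 1 (QuotientGroup.mk 1)) UpperHalfPlane.I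
    exact this
  rw [h3] at h2
  exact zero_ne_one h2

/-- the member of weight zero is unique -/
theorem Good.k_eq_zero_unique (h : s.Good) {j j' : Q N} (hj : s.k j = 0) (hj' : s.k j' = 0) :
    j = j' := by
  by_contra hne
  obtain ⟨a, ha⟩ := ((s.mf j).congr_weight hj).const_of_weight_zero
  obtain ⟨a', ha'⟩ := ((s.mf j').congr_weight hj').const_of_weight_zero
  have hrow : ∀ q, s.ent j q UpperHalfPlane.I = a := by
    intro q
    unfold ent
    rw [hj, ha, cj_const]
  have hrow' : ∀ q, s.ent j' q UpperHalfPlane.I = a' := by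
    intro q
    unfold ent
    rw [hj', ha', cj_const]
  have ha0 : a ≠ 0 := by
    rintro rfl
    exact h.indep.F_ne_zero j ha
  apply h.D_ne_zero UpperHalfPlane.I
  apply Matrix.exists_vecMul_eq_zero_iff.mp
  refine ⟨Pi.single j a' - Pi.single j' a, ?_, ?_⟩
  · intro h0
    have := congrFun h0 j'
    simp [Ne.symm hne, ha0] at this
  · funext q
    rw [Matrix.sub_vecMul, Matrix.single_vecMul, Matrix.single_vecMul]
    simp only [Pi.sub_apply, Pi.smul_apply, smul_eq_mul, Pi.zero_apply]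
    change a' * s.ent j q UpperHalfPlane.I - a * s.ent j' q UpperHalfPlane.I = 0
    rw [hrow, hrow']
    ring

end Sys

end Fermat.Agent.S20
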