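import Mathlib
import Fermat.Agent.S20.Concl2

/-!
# Consequences of the existence of a good system, III: the dimension of `S₂`
-/

set_option autoImplicit false
set_option linter.unusedSectionVars false

open UpperHalfPlane hiding I
open Function Complex Filter
open scoped Manifold Real MatrixGroups ModularForm Topology
open CongruenceSubgroup Matrix.SpecialLinearGroup ModularForm EisensteinSeries

namespace Fermat.Agent.S20

local notation "Δ" => ModularForm.discriminant

namespace Sys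

variable {N : ℕ} [NeZero N] {s : Sys N}

/-- the trace pairing -/
noncomputable def tr (s : Sys N) (f : ℍ → ℂ) (j : Q N) : ℍ → ℂ :=
  fun τ => ∑ q, cj 2 f q τ * s.ent j q τ

theorem tr_smul (s : Sys N) {f : ℍ → ℂ} (hf : IsCF N 2 f) (j : Q N) (γ : SL(2, ℤ)) (τ : ℍ) :
    s.tr f j (γ • τ) = denom γ τ ^ (2 + s.k j) * s.tr f j τ := by
  unfold tr
  rw [← Equiv.sum_comp (MulAction.toPerm (γ⁻¹ : SL(2, ℤ))) (fun q => cj 2 f q τ * s.ent j q τ),
    Finset.mul_sum]
  refine Finset.sum_congr rfl fun q _ => ?_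
  rw [cj_smul_apply hf.inv, ent_smul, zpow_add₀ (denom_ne_zero _ _), MulAction.toPerm_apply]
  ring

theorem isCF_tr (s : Sys N) {f : ℍ → ℂ} (hf : IsCF N 2 f) (j : Q N) :
    IsCF 1 (2 + s.k j) (s.tr f j) := by
  have hsum : s.tr f j = ∑ q, cj 2 f q * s.ent j q := by
    funext τ
    simp [tr, Finset.sum_apply]
  refine ⟨?_, fun γ _ => slash_eq_of_smul (s.tr_smul hf j) γ, fun σ => ?_⟩
  · rw [hsum]
    exact MDifferentiable.sum fun q _ => (hf.isMF.cj_hol q).mul (s.ent_hol j q)
  · rw [slash_eq_of_smul (s.tr_smul hf j) σ, hsum]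
    refine Finset.sum_induction _ (fun φ : ℍ → ℂ => IsZeroAtImInfty φ)
      (fun _ _ h1 h2 => Filter.ZeroAtFilter.add h1 h2) (Filter.zero_zeroAtFilter _) fun q _ => ?_
    exact (hf.cj_zero q).mul_boundedAtFilter (s.ent_bdd j q)

/-- the linear map to `ℂ^J` -/
noncomputable def Phi (s : Sys N) :
    CuspForm (Gamma0 N) 2 →ₗ[ℂ] ({j : Q N // s.k j = 10} → ℂ) where
  toFun f j := s.tr (⇑f) j.1 UpperHalfPlane.I / Δ UpperHalfPlane.I
  map_add' f g := by
    funext j
    simp only [tr, FunLike.coe_add, cj_add, Pi.add_apply, add_mul, Finset.sum_add_distrib, add_div]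
  map_smul' c f := by
    funext j
    have h1 : ⇑(c • f) = c • ⇑f := by
      ext z
      simp
    simp only [tr, h1, cj_smul, Pi.smul_apply, smul_eq_mul, RingHom.id_apply, mul_assoc,
      ← Finset.mul_sum, mul_div_assoc]

theorem Good.tr_eq_zero (h : s.Good) (f : CuspForm (Gamma0 N) 2) (hf : s.Phi f = 0) (j : Q N) :
    s.tr (⇑f) j = 0 := by
  have hcf := s.isCF_tr (isCF_coe f) j
  by_cases hj : s.k j = 10
  · obtain ⟨c, hc⟩ := (hcf.congr_weight (by rw [hj]; norm_num)).eq_smul_delta
    have h1 := congrFun hf ⟨j, hj⟩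
    change s.tr (⇑f) j UpperHalfPlane.I / Δ UpperHalfPlane.I = 0 at h1
    rw [hc] at h1 ⊢
    simp only [Pi.smul_apply, smul_eq_mul] at h1
    rw [mul_div_assoc, div_self (discriminant_ne_zero _), mul_one] at h1
    rw [h1, zero_smul]
  · have h1 := h.k_lt_twelve j
    obtain ⟨m, hm⟩ := h.indep.k_even j
    exact hcf.eq_zero_of_lt_twelve (by omega)

theorem Good.Phi_injective (h : s.Good) : Function.Injective s.Phi := by
  rw [injective_iff_map_eq_zero]
  intro f hf
  ext τ
  have h1 : (s.mat τ).mulVec (fun q => cj 2 (⇑f) q τ) = 0 := by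
    funext j
    have := congrFun (h.tr_eq_zero f hf j) τ
    unfold tr at this
    simp only [Matrix.mulVec, dotProduct, Pi.zero_apply] at this ⊢
    rw [← this]
    refine Finset.sum_congr rfl fun q _ => ?_
    rw [mul_comm]
    rfl
  have h2 := Matrix.eq_zero_of_mulVec_eq_zero (h.D_ne_zero τ) h1
  have h3 := congrFun h2 (QuotientGroup.mk 1)
  simp only [Pi.zero_apply] at h3
  rw [cj_one (isCF_coe f).inv] at h3
  exact h3

/-- the dual cusp forms of weight two -/
noncomputable def Good.dualForm (h : s.Good) (j : {j : Q N // s.k j = 10}) :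
    CuspForm (Gamma0 N) 2 :=
  ((h.isCF_dual j.1).congr_weight (by rw [j.2]; norm_num)).toForm

theorem Good.Phi_dualForm (h : s.Good) (j : {j : Q N // s.k j = 10}) :
    s.Phi (h.dualForm j) = Pi.single j 1 := by
  funext j'
  change s.tr (s.dual (QuotientGroup.mk 1) j.1) j'.1 UpperHalfPlane.I / Δ UpperHalfPlane.I = _
  have h1 : ∀ q, cj 2 (s.dual (QuotientGroup.mk 1) j.1) q = s.dual q j.1 := by
    intro q
    have := h.cj_dual q j.1
    rwa [j.2, show (12 : ℤ) - 10 = 2 by norm_num] at this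
  unfold tr
  simp only [h1, dual]
  have h2 := congrFun (congrFun (h.mul_inv UpperHalfPlane.I) j'.1) j.1
  rw [Matrix.mul_apply] at h2
  have h3 : ∑ q, Δ UpperHalfPlane.I * (s.mat UpperHalfPlane.I)⁻¹ q j.1 *
      s.ent j'.1 q UpperHalfPlane.I = Δ UpperHalfPlane.I * (1 : Matrix (Q N) (Q N) ℂ) j'.1 j.1 := by
    rw [← h2, Finset.mul_sum]
    refine Finset.sum_congr rfl fun q _ => ?_
    rw [mul_assoc, mul_comm ((s.mat UpperHalfPlane.I)⁻¹ q j.1)]
    rfl
  rw [h3, mul_comm, mul_div_assoc, div_self (discriminant_ne_zero _), mul_one, Matrix.one_apply,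
    Pi.single_apply]
  simp only [Subtype.ext_iff]

theorem Good.Phi_surjective (h : s.Good) : Function.Surjective s.Phi := by
  intro y
  refine ⟨∑ j, y j • h.dualForm j, ?_⟩
  rw [map_sum]
  simp_rw [map_smul, h.Phi_dualForm]
  funext j
  simp [Finset.sum_apply, Pi.single_apply]

/-- **The dimension of `S₂(Γ₀(N))`.** -/
theorem Good.finrank_eq (h : s.Good) :
    Module.finrank ℂ (CuspForm (Gamma0 N) 2) = Fintype.card {j : Q N // s.k j = 10} := by
  have e := LinearEquiv.ofBijective s.Phi ⟨h.Phi_injective, h.Phi_surjective⟩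
  rw [e.finrank_eq, Module.finrank_fintype_fun_eq_card]

end Sys

end Fermat.Agent.S20
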