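import Mathlib
import Fermat.Agent.S20.Concl3

/-!
# Consequences of the existence of a good system, IV: the final count
-/

set_option autoImplicit false
set_option linter.unusedSectionVars false

open UpperHalfPlane hiding I
open Function Complex Filter
open scoped Manifold Real MatrixGroups ModularForm Topology
open CongruenceSubgroup Matrix.SpecialLinearGroup ModularForm EisensteinSeries

namespace Fermat.Agent.S20

namespace Sys

variable {N : ℕ} [NeZero N] {s : Sys N}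

/-- the number of members of weight `a` -/
noncomputable def cnt (s : Sys N) (a : ℤ) : ℕ := Fintype.card {j : Q N // s.k j = a}

/-- the possible weights -/
def wts : Finset ℤ := {0, 2, 4, 6, 8, 10}

theorem Good.k_mem (h : s.Good) (j : Q N) : s.k j ∈ wts := by
  have h1 := h.k_lt_twelve j
  have h2 := h.indep.k_nonneg j
  obtain ⟨m, hm⟩ := h.indep.k_even j
  have h3 : m = 0 ∨ m = 1 ∨ m = 2 ∨ m = 3 ∨ m = 4 ∨ m = 5 := by omega
  simp only [wts, Finset.mem_insert, Finset.mem_singleton]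
  omega

theorem Good.sum_eq (h : s.Good) (φ : ℤ → ℂ) :
    ∑ j, φ (s.k j) = s.cnt 0 * φ 0 + s.cnt 2 * φ 2 + s.cnt 4 * φ 4 + s.cnt 6 * φ 6 +
      s.cnt 8 * φ 8 + s.cnt 10 * φ 10 := by
  rw [← Finset.sum_fiberwise_of_maps_to (t := wts) (g := s.k) (fun j _ => h.k_mem j)]
  have h1 : ∀ a ∈ wts, ∑ j ∈ Finset.univ.filter (fun j => s.k j = a), φ (s.k j) =
      s.cnt a * φ a := by
    intro a _
    rw [Finset.sum_congr rfl (fun j hj => by rw [(Finset.mem_filter.mp hj).2] :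
      ∀ j ∈ Finset.univ.filter (fun j => s.k j = a), φ (s.k j) = φ a), Finset.sum_const,
      nsmul_eq_mul, cnt, Fintype.card_subtype]
  rw [Finset.sum_congr rfl h1]
  simp only [wts]
  rw [Finset.sum_insert (by decide), Finset.sum_insert (by decide), Finset.sum_insert (by decide),
    Finset.sum_insert (by decide), Finset.sum_insert (by decide), Finset.sum_singleton]
  ring

theorem Good.cnt_zero (h : s.Good) : s.cnt 0 = 1 := by
  obtain ⟨j, hj⟩ := h.exists_k_eq_zero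
  unfold cnt
  rw [Fintype.card_eq_one_iff]
  exact ⟨⟨j, hj⟩, fun y => Subtype.ext (h.k_eq_zero_unique y.2 hj)⟩

theorem Good.eq_card (h : s.Good) :
    (s.cnt 0 + s.cnt 2 + s.cnt 4 + s.cnt 6 + s.cnt 8 + s.cnt 10 : ℂ) = Fintype.card (Q N) := by
  have := h.sum_eq (fun _ => 1)
  simp only [Finset.sum_const, Finset.card_univ, nsmul_eq_mul, mul_one] at this
  rw [this]

theorem Good.eq_K (h : s.Good) :
    (2 * s.cnt 2 + 4 * s.cnt 4 + 6 * s.cnt 6 + 8 * s.cnt 8 + 10 * s.cnt 10 : ℂ) = s.K := by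
  have := h.sum_eq (fun a => (a : ℂ))
  unfold K
  push_cast at this ⊢
  rw [this]
  ring

theorem Good.eq_S (h : s.Good) :
    (s.cnt 0 - s.cnt 2 + s.cnt 4 - s.cnt 6 + s.cnt 8 - s.cnt 10 : ℂ) =
      Nat.card {q : Q N // ModularGroup.S • q = q} := by
  rw [← h.trace_identity ModularGroup.S UpperHalfPlane.I S_smul_I, denom_S_I,
    h.sum_eq (fun a => (Complex.I ^ a)⁻¹)]
  have h2 : Complex.I ^ (2 : ℤ) = -1 := by
    rw [show (2 : ℤ) = ((2 : ℕ) : ℤ) by norm_num, zpow_natCast, Complex.I_sq]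
  have h4 : Complex.I ^ (4 : ℤ) = 1 := by
    rw [show (4 : ℤ) = 2 + 2 by norm_num, zpow_add₀ Complex.I_ne_zero, h2]; norm_num
  have h6 : Complex.I ^ (6 : ℤ) = -1 := by
    rw [show (6 : ℤ) = 4 + 2 by norm_num, zpow_add₀ Complex.I_ne_zero, h2, h4]; norm_num
  have h8 : Complex.I ^ (8 : ℤ) = 1 := by
    rw [show (8 : ℤ) = 4 + 4 by norm_num, zpow_add₀ Complex.I_ne_zero, h4]; norm_num
  have h10 : Complex.I ^ (10 : ℤ) = -1 := by
    rw [show (10 : ℤ) = 8 + 2 by norm_num, zpow_add₀ Complex.I_ne_zero, h2, h8]; norm_num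
  rw [h2, h4, h6, h8, h10, zpow_zero]
  norm_num
  ring

theorem Good.eq_U (h : s.Good) :
    ((s.cnt 0 + s.cnt 6 : ℂ) + (s.cnt 2 + s.cnt 8) * (-(ptRho : ℂ) - 1) +
      (s.cnt 4 + s.cnt 10) * (ptRho : ℂ)) = Nat.card {q : Q N // Um • q = q} := by
  rw [← h.trace_identity Um ptRho Um_smul_ptRho, denom_Um,
    h.sum_eq (fun a => (((ptRho : ℂ) + 1) ^ a)⁻¹)]
  have hr := ptRho_sq
  set r : ℂ := (ptRho : ℂ) with hrdef
  have hz : r + 1 ≠ 0 := by
    intro h0
    have : r = -1 := by linear_combination h0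
    rw [this] at hr
    norm_num at hr
  have h2 : (r + 1) ^ (2 : ℤ) = r := by
    rw [show (2 : ℤ) = ((2 : ℕ) : ℤ) by norm_num, zpow_natCast]
    linear_combination hr
  have h4 : (r + 1) ^ (4 : ℤ) = -r - 1 := by
    rw [show (4 : ℤ) = 2 + 2 by norm_num, zpow_add₀ hz, h2]
    linear_combination hr
  have h6 : (r + 1) ^ (6 : ℤ) = 1 := by
    rw [show (6 : ℤ) = 4 + 2 by norm_num, zpow_add₀ hz, h2, h4]
    linear_combination -hr
  have h8 : (r + 1) ^ (8 : ℤ) = r := by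
    rw [show (8 : ℤ) = 6 + 2 by norm_num, zpow_add₀ hz, h2, h6, one_mul]
  have h10 : (r + 1) ^ (10 : ℤ) = -r - 1 := by
    rw [show (10 : ℤ) = 6 + 4 by norm_num, zpow_add₀ hz, h4, h6, one_mul]
  have hi1 : r⁻¹ = -r - 1 := by
    apply inv_eq_of_mul_eq_one_right
    linear_combination -hr
  have hi2 : (-r - 1)⁻¹ = r := by
    rw [← hi1, inv_inv]
  rw [h2, h4, h6, h8, h10, zpow_zero, hi1, hi2]
  norm_num
  ring

end Sys

/-- **The dimension formula in terms of the combinatorics of the coset space.** -/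
theorem finrank_formula (N : ℕ) [NeZero N] :
    (Module.finrank ℂ (CuspForm (Gamma0 N) 2) : ℚ) = 1 + (Fintype.card (Q N) : ℚ) / 12 -
      (Nat.card {q : Q N // ModularGroup.S • q = q} : ℚ) / 4 -
      (Nat.card {q : Q N // Um • q = q} : ℚ) / 3 - (nCusps N : ℚ) / 2 := by
  obtain ⟨s, a, ha, hD, hK⟩ := exists_good N
  have h : s.Good := ⟨⟨a, ha, hD⟩, hK⟩
  rw [h.finrank_eq]
  change (s.cnt 10 : ℚ) = _
  have e1 := h.eq_card
  have e2 := h.eq_K
  have e3 := h.eq_S
  have e4 := h.eq_U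
  have e0 := h.cnt_zero
  have hle := nCusps_le (N := N)
  have hex : (Sys.ex N : ℤ) = (Fintype.card (Q N) : ℤ) - (nCusps N : ℤ) := by
    unfold Sys.ex
    push_cast [Nat.cast_sub hle]
    ring
  have hK' : (2 * (s.K : ℝ)) = 12 * ((Fintype.card (Q N) : ℝ) - (nCusps N : ℝ)) := by
    have := hK
    rw [hex] at this
    exact_mod_cast this
  -- pass to real numbers
  have r1 : (s.cnt 0 + s.cnt 2 + s.cnt 4 + s.cnt 6 + s.cnt 8 + s.cnt 10 : ℝ) =
      Fintype.card (Q N) := by exact_mod_cast e1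
  have r2 : (2 * s.cnt 2 + 4 * s.cnt 4 + 6 * s.cnt 6 + 8 * s.cnt 8 + 10 * s.cnt 10 : ℝ) = s.K := by
    exact_mod_cast e2
  have r3 : (s.cnt 0 - s.cnt 2 + s.cnt 4 - s.cnt 6 + s.cnt 8 - s.cnt 10 : ℝ) =
      Nat.card {q : Q N // ModularGroup.S • q = q} := by exact_mod_cast e3
  have hre : (ptRho : ℂ).re = -1 / 2 := by
    rw [coe_ptRho]
    simp
  have him : (ptRho : ℂ).im = Real.sqrt 3 / 2 := by
    rw [coe_ptRho]
    simp
  have r4 := congrArg Complex.re e4
  have r5 := congrArg Complex.im e4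
  simp only [Complex.add_re, Complex.mul_re, Complex.sub_re, Complex.neg_re, Complex.natCast_re,
    Complex.natCast_im, Complex.one_re, Complex.add_im, Complex.mul_im, Complex.sub_im,
    Complex.neg_im, Complex.one_im, hre, him] at r4 r5
  have hs3 : (0 : ℝ) < Real.sqrt 3 := Real.sqrt_pos.mpr (by norm_num)
  have r5' : ((s.cnt 4 : ℝ) + s.cnt 10) = s.cnt 2 + s.cnt 8 := by
    have : Real.sqrt 3 * (((s.cnt 4 : ℝ) + s.cnt 10) - (s.cnt 2 + s.cnt 8)) = 0 := by
      linarith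
    rcases mul_eq_zero.mp this with h0 | h0
    · exact absurd h0 hs3.ne'
    · linarith
  have r0 : (s.cnt 0 : ℝ) = 1 := by exact_mod_cast e0
  have key : (s.cnt 10 : ℝ) = 1 + (Fintype.card (Q N) : ℝ) / 12 -
      (Nat.card {q : Q N // ModularGroup.S • q = q} : ℝ) / 4 -
      (Nat.card {q : Q N // Um • q = q} : ℝ) / 3 - (nCusps N : ℝ) / 2 := by
    linarith
  have key' : ((s.cnt 10 : ℚ) : ℝ) = ((1 + (Fintype.card (Q N) : ℚ) / 12 -
      (Nat.card {q : Q N // ModularGroup.S • q = q} : ℚ) / 4 -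
      (Nat.card {q : Q N // Um • q = q} : ℚ) / 3 - (nCusps N : ℚ) / 2 : ℚ) : ℝ) := by
    push_cast
    exact key
  exact Rat.cast_injective key'

end Fermat.Agent.S20
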