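import Mathlib
import Fermat.Agent.S20.Basic

/-!
# Analysis at `i∞` for the module INF of the S20 project
-/

set_option autoImplicit false

open UpperHalfPlane hiding I
open Function Complex Filter
open scoped Manifold Real MatrixGroups ModularForm Topology
open CongruenceSubgroup Matrix.SpecialLinearGroup ModularForm

namespace Fermat.Agent.S20

local notation "Δ" => ModularForm.discriminant

/-- `q = e^{2πiτ}` -/
noncomputable def infQ (τ : ℍ) : ℂ := Complex.exp (2 * π * Complex.I * τ)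

variable {f : ℍ → ℂ}

theorem infQ_eq_qParam (τ : ℍ) : infQ τ = Function.Periodic.qParam 1 τ := by
  simp [infQ, Function.Periodic.qParam]

theorem infQ_ne_zero (τ : ℍ) : infQ τ ≠ 0 := Complex.exp_ne_zero _

theorem norm_infQ (τ : ℍ) : ‖infQ τ‖ = Real.exp (-2 * π * τ.im / 1) := by
  rw [infQ_eq_qParam, Function.Periodic.norm_qParam]
  rfl

theorem infQ_T_smul (τ : ℍ) : infQ (ModularGroup.T • τ) = infQ τ := by
  rw [infQ, infQ, UpperHalfPlane.modular_T_smul]
  have : ((((1 : ℝ) +ᵥ τ : ℍ)) : ℂ) = 1 + τ := by simp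
  rw [this, mul_add, mul_one, add_comm, Complex.exp_add, Complex.exp_two_pi_mul_I, mul_one]

theorem mdiff_infQ : MDiff infQ := by
  rw [UpperHalfPlane.mdifferentiable_iff]
  have h : DifferentiableOn ℂ (fun z : ℂ => Complex.exp (2 * π * Complex.I * z))
      {z | 0 < z.im} := by fun_prop
  refine h.congr fun z hz => ?_
  simp only [comp_apply, infQ]
  rw [UpperHalfPlane.ofComplex_apply_of_im_pos hz]

theorem inf_an_periodic (hper : ∀ τ, f (ModularGroup.T • τ) = f τ) :
    Periodic (f ∘ ofComplex) (1 : ℝ) := by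
  intro w
  by_cases! hw : 0 < im w
  · have h1 : 0 < im (w + (1 : ℝ)) := by simp [hw]
    simp only [comp_apply, ofComplex_apply_of_im_pos h1, ofComplex_apply_of_im_pos hw]
    rw [← hper ⟨w, hw⟩, UpperHalfPlane.modular_T_smul]
    congr 1
    ext
    simp [add_comm]
  · have h1 : im (w + (1 : ℝ)) ≤ 0 := by simpa using hw
    simp only [comp_apply]
    rw [ofComplex_apply_of_im_nonpos h1, ofComplex_apply_of_im_nonpos hw]

theorem inf_an_delta : Tendsto (fun τ => Δ τ / infQ τ) atImInfty (𝓝 1) := by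
  refine tendsto_atImInfty_tprod_one_sub_eta_q_pow.congr fun τ => ?_
  rw [discriminant_eq_q_prod, ← infQ_eq_qParam, mul_div_cancel_left₀ _ (infQ_ne_zero τ)]

theorem inf_an_decay (hf : MDiff f) (hper : ∀ τ, f (ModularGroup.T • τ) = f τ)
    (h0 : Tendsto f atImInfty (𝓝 0)) :
    f =O[atImInfty] fun τ => Real.exp (-2 * π * τ.im / 1) := by
  have hz : IsZeroAtImInfty f := h0
  exact hz.exp_decay_atImInfty one_pos (inf_an_periodic hper) hf hz.isBoundedAtImInfty

/-- (B3) -/
theorem inf_an_div (hf : MDiff f) (hper : ∀ τ, f (ModularGroup.T • τ) = f τ)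
    (h0 : Tendsto f atImInfty (𝓝 0)) : IsBoundedAtImInfty (fun τ => f τ / Δ τ) := by
  have h1 : f =O[atImInfty] Δ :=
    (inf_an_decay hf hper h0).trans (by simpa using exp_isBigO_discriminant)
  obtain ⟨c, hc⟩ := h1.bound
  refine Asymptotics.IsBigO.of_bound c ?_
  filter_upwards [hc] with τ hτ
  rw [norm_div, Pi.one_apply, norm_one, mul_one,
    div_le_iff₀ (norm_pos_iff.mpr (discriminant_ne_zero τ))]
  exact hτ

/-- (B1) -/
theorem inf_an_bdd (hf : MDiff f) (hper : ∀ τ, f (ModularGroup.T • τ) = f τ)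
    (h0 : Tendsto (fun τ => f τ * infQ τ) atImInfty (𝓝 0)) : IsBoundedAtImInfty f := by
  have h1 := inf_an_decay (f := fun τ => f τ * infQ τ) (hf.mul mdiff_infQ)
    (fun τ => by rw [hper, infQ_T_smul]) h0
  obtain ⟨c, hc⟩ := h1.bound
  refine Asymptotics.IsBigO.of_bound c ?_
  filter_upwards [hc] with τ hτ
  rw [norm_mul, norm_infQ, Real.norm_of_nonneg (Real.exp_pos _).le] at hτ
  rw [Pi.one_apply, norm_one, mul_one]
  exact le_of_mul_le_mul_right hτ (Real.exp_pos _)

/-- (B2) -/
theorem inf_an_lim (hf : MDiff f) (hper : ∀ τ, f (ModularGroup.T • τ) = f τ)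
    (hb : IsBoundedAtImInfty f) : ∃ l : ℂ, Tendsto f atImInfty (𝓝 l) := by
  refine ⟨valueAtInfty f, ?_⟩
  have h1 := exp_decay_sub_atImInfty one_pos (inf_an_periodic hper) hf hb
  have h2 : Tendsto (fun τ : ℍ => Real.exp (-2 * π * τ.im / 1)) atImInfty (𝓝 0) := by
    have h3 : Tendsto (fun τ : ℍ => ‖Function.Periodic.qParam 1 (τ : ℂ)‖) atImInfty (𝓝 0) :=
      tendsto_zero_iff_norm_tendsto_zero.mp (qParam_tendsto_atImInfty one_pos)
    refine h3.congr fun τ => ?_
    rw [Function.Periodic.norm_qParam]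
    rfl
  have h4 := h1.trans_tendsto h2
  have h5 := h4.add_const (valueAtInfty f)
  simpa using h5

end Fermat.Agent.S20
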